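import Fermat.Agent.S59.TW.H564.Neb

/-!
# Row HARD, leaf (ST), bridge MODQ-U (helper264), part 2: the twist embedding intertwines `U_q`

helper564's twist embedding (`H564.exists_twistEmbedding`, `exists_twistEmbeddingK`) is
re-derived with one more clause: for every `q ≠ 0` dividing the target level `M₂` which is
congruent modulo the primes of `Qs` to an integer `d` prime to `M`,

  `U_q (J f) = J g`   whenever   `g = ε(d)^m • U_q f`  as functions.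

(`ψ_L(q) = ψ_L(d) = ε(d)^m`: the twisting characters only see `q` modulo the primes of `Qs`.)
-/

set_option autoImplicit false
set_option linter.deprecated false
set_option linter.unusedSectionVars false

noncomputable section

namespace Fermat.Agent.S38.H264

open Matrix Matrix.SpecialLinearGroup CongruenceSubgroup UpperHalfPlane ModularForm
open Fermat.Agent.Lib.Newform.H803 Fermat.Agent.S59.TW.H564
open scoped MatrixGroups ModularForm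

variable {k : ℤ} {M : ℕ} [NeZero M]

/-- `psiL` only depends on the classes modulo the primes of the list. -/
theorem psiL_congr {ψ : (q : ℕ) → DirichletCharacter ℂ q} (L : List ℕ) {a : ℕ} {d : ℤ}
    (h : ∀ q ∈ L, ((a : ℕ) : ZMod q) = ((d : ℤ) : ZMod q)) :
    psiL ψ L a = (L.map fun q => ψ q ((d : ℤ) : ZMod q)).prod := by
  unfold psiL
  congr 1
  exact List.map_congr_left fun q hq => by rw [h q hq]

/-- **E4 TWIST with `U_q`** (on `S_k(Γ₁(M))[ε]`). -/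
theorem exists_twistEmbeddingU (k : ℤ) {M : ℕ} [NeZero M] (Qs : List ℕ) (hnd : Qs.Nodup)
    (hQs : ∀ q ∈ Qs, q.Prime ∧ ∃ M' : ℕ, M = M' * q ∧ Nat.Coprime M' q)
    (ε : DirichletCharacter ℂ M)
    (hper : ∀ a b : ℤ, IsUnit ((a : ℤ) : ZMod M) → IsUnit ((b : ℤ) : ZMod M) →
      (∀ q ∈ Qs, (q : ℤ) ∣ a - b) → ε ((a : ℤ) : ZMod M) = ε ((b : ℤ) : ZMod M))
    (m : ℕ) (hm : ε ^ (2 * m + 1) = 1) (M₂ : ℕ) [NeZero M₂] (hM₂ : M * Qs.prod ∣ M₂) :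
    ∃ j : nebSub k M ε →ₗ[ℂ] CuspForm (Gamma0 M₂) k,
      Function.Injective j ∧
      (∀ (ℓ : ℕ) [Fact ℓ.Prime] (hℓ : ¬ ℓ ∣ M) (hℓ₂ : ¬ ℓ ∣ M₂) (f : nebSub k M ε),
        CuspForm.heckeTLin k (Fact.out : ℓ.Prime) hℓ₂ (j f) =
          j (ε ((ℓ : ℕ) : ZMod M) ^ m • TpNeb ε ℓ hℓ f)) ∧
      ∀ (q : ℕ) (_ : q ≠ 0) (hq₂ : q ∣ M₂) (d : ℤ), IsUnit ((d : ℤ) : ZMod M) →
        (∀ q' ∈ Qs, (q' : ℤ) ∣ d - (q : ℤ)) → ∀ f g : nebSub k M ε,
        (⇑g.1 : ℍ → ℂ) = ε ((d : ℤ) : ZMod M) ^ m • heckeU k q ⇑f.1 →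
        CuspForm.heckeULin k hq₂ (j f) = j g := by
  obtain ⟨L, ψ, hLnd, hLQ, hLprod, hψ, hram, hc, hd⟩ := exists_psi ε Qs hnd hQs hper m hm
  have hχ : IsCharMod M (fun d : ℤ => ε ((d : ℤ) : ZMod M)) := isCharMod_dirichlet ε
  have hLM : ∀ q ∈ L, q ∣ M := fun q hq => by
    obtain ⟨-, M', hM, -⟩ := hQs q (hLQ q hq)
    exact ⟨M', by rw [hM, mul_comm]⟩
  have hL : ∀ q ∈ L, q ≠ 0 ∧ q ∣ M := fun q hq => ⟨(hQs q (hLQ q hq)).1.ne_zero, hLM q hq⟩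
  have hMM₂ : M ∣ M₂ := (Dvd.intro _ rfl).trans hM₂
  have hΓ : Gamma0 M₂ ≤ Gamma0 (M * L.prod) := by
    intro γ hγ
    rw [mem_Gamma0_iff_dvd] at hγ ⊢
    exact (Int.natCast_dvd_natCast.mpr ((Nat.mul_dvd_mul_left M hLprod).trans hM₂)).trans hγ
  have h1 : ∀ γ ∈ Gamma0 M₂, chiL ψ (fun d : ℤ => ε ((d : ℤ) : ZMod M)) L (γ 1 1) = 1 := by
    intro γ hγ
    rw [chiL_apply]
    exact hc _ (isUnit_cast_of_mem_Gamma0 hMM₂ hγ)
  let j : nebSub k M ε →ₗ[ℂ] CuspForm (Gamma0 M₂) k :=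
    { toFun := fun f => twistLCuspForm (ψ := ψ) L hL hχ (⇑f.1) (isNeb_of_hasNeb f.2)
        (isCuspidal_of_cuspForm f.1) (Gamma0 M₂) hΓ h1
      map_add' := fun f g => by
        apply DFunLike.coe_injective
        rw [CuspForm.coe_add, coe_twistLCuspForm, coe_twistLCuspForm, coe_twistLCuspForm]
        rw [Submodule.coe_add, CuspForm.coe_add, twistL_add]
      map_smul' := fun c f => by
        apply DFunLike.coe_injective
        rw [RingHom.id_apply, CuspForm.IsGLPos.coe_smul, coe_twistLCuspForm,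
          coe_twistLCuspForm, Submodule.coe_smul, CuspForm.IsGLPos.coe_smul, twistL_smul] }
  have hj : ∀ f : nebSub k M ε, (⇑(j f) : ℍ → ℂ) = twistL k ψ L ⇑f.1 := fun f => rfl
  refine ⟨j, ?_, ?_, ?_⟩
  · rw [injective_iff_map_eq_zero]
    intro f hf
    have h0 : twistL k ψ L ⇑f.1 = 0 := by
      rw [← hj f, hf, CuspForm.coe_zero]
    have := twistL_injective (ψ := ψ) L hLnd (fun q hq => hQs q (hLQ q hq)) hψ hχ hram
      (isNeb_of_hasNeb f.2) h0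
    apply Subtype.ext
    apply DFunLike.coe_injective
    rw [this]
    rfl
  · intro ℓ _ hℓ hℓ₂ f
    have hℓp : ℓ.Prime := Fact.out
    apply DFunLike.coe_injective
    rw [CuspForm.coe_heckeTLin_apply, hj, hj]
    have hunit : IsUnit (((ℓ : ℕ) : ℤ) : ZMod M) := by
      rw [Int.cast_natCast, ZMod.isUnit_iff_coprime]
      exact (Nat.Prime.coprime_iff_not_dvd hℓp).mpr hℓ
    have hLℓ : ∀ q ∈ L, q ≠ 0 ∧ IsUnit ((ℓ : ℕ) : ZMod q) := fun q hq => by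
      refine ⟨(hL q hq).1, ?_⟩
      have := isUnit_intCast_of_dvd (hLM q hq) hunit
      rwa [Int.cast_natCast] at this
    have hpsi : psiL ψ L ℓ = ε ((ℓ : ℕ) : ZMod M) ^ m := by
      have := hd (ℓ : ℤ) hunit
      simp only [Int.cast_natCast] at this
      exact this
    have hcc : ε ((ℓ : ℕ) : ZMod M) * psiL ψ L ℓ ^ 2 = 1 := by
      have h2 := hc (ℓ : ℤ) hunit
      simp only [Int.cast_natCast] at h2
      rw [list_prod_map_pow] at h2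
      exact h2
    rw [heckeT_twistL' (ψ := ψ) L hℓp.ne_zero hLℓ ((isNeb_of_hasNeb f.2).isPer hχ) hcc, hpsi]
    rw [Submodule.coe_smul, CuspForm.IsGLPos.coe_smul, twistL_smul, coe_TpNeb,
      S48.H548.coe_TpL_of_hasNeb hℓ f.1 f.2]
  · intro q hq0 hq₂ d hdu hdq f g hfg
    apply DFunLike.coe_injective
    rw [CuspForm.coe_heckeULin_apply, hj, hj, hfg]
    have hcast : ∀ q' ∈ L, ((q : ℕ) : ZMod q') = ((d : ℤ) : ZMod q') := fun q' hq' => by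
      have h2 := hdq q' (hLQ q' hq')
      have h3 : (((d - (q : ℤ) : ℤ)) : ZMod q') = 0 :=
        (ZMod.intCast_zmod_eq_zero_iff_dvd _ _).mpr h2
      rw [Int.cast_sub, Int.cast_natCast, sub_eq_zero] at h3
      exact h3.symm
    have hLq : ∀ q' ∈ L, q' ≠ 0 ∧ IsUnit ((q : ℕ) : ZMod q') := fun q' hq' => by
      refine ⟨(hL q' hq').1, ?_⟩
      rw [hcast q' hq']
      exact isUnit_intCast_of_dvd (hLM q' hq') hdu
    have hpsi : psiL ψ L q = ε ((d : ℤ) : ZMod M) ^ m := by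
      rw [psiL_congr L hcast]
      exact hd d hdu
    rw [heckeU_twistL (ψ := ψ) L hq0 hLq ((isNeb_of_hasNeb f.2).isPer hχ), hpsi, twistL_smul]

/-- `exists_twistEmbeddingU` with the hypothesis "`ε` is trivial on the units `≡ 1 mod ∏ Qs`",
on the nebentypus-`ε` part of `S_k(K)`, `Γ₁(M) ≤ K`. -/
theorem exists_twistEmbeddingKU (k : ℤ) {M : ℕ} [NeZero M] {K : Subgroup SL(2, ℤ)}
    (hge : Gamma1 M ≤ K) (Qs : List ℕ) (hnd : Qs.Nodup)
    (hQs : ∀ q ∈ Qs, q.Prime ∧ ∃ M' : ℕ, M = M' * q ∧ Nat.Coprime M' q)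
    (ε : DirichletCharacter ℂ M)
    (hε : ∀ d : ℤ, ((Qs.prod : ℕ) : ℤ) ∣ d - 1 → IsUnit ((d : ℤ) : ZMod M) →
      ε ((d : ℤ) : ZMod M) = 1)
    (m : ℕ) (hm : ε ^ (2 * m + 1) = 1) (M₂ : ℕ) [NeZero M₂] (hM₂ : M * Qs.prod ∣ M₂) :
    ∃ J : nebK k K ε →ₗ[ℂ] CuspForm (Gamma0 M₂) k,
      Function.Injective J ∧
      (∀ (ℓ : ℕ) [Fact ℓ.Prime] (_ : ¬ ℓ ∣ M) (hℓ₂ : ¬ ℓ ∣ M₂) (f g : nebK k K ε),
        (⇑g.1 : ℍ → ℂ) = ε ((ℓ : ℕ) : ZMod M) ^ m •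
          (heckeU k ℓ ⇑f.1 +
            ε ((ℓ : ℕ) : ZMod M) • ((⇑f.1 : ℍ → ℂ) ∣[k] heckeDiagMatrix ℓ)) →
        CuspForm.heckeTLin k (Fact.out : ℓ.Prime) hℓ₂ (J f) = J g) ∧
      ∀ (q : ℕ) (_ : q ≠ 0) (hq₂ : q ∣ M₂) (d : ℤ), IsUnit ((d : ℤ) : ZMod M) →
        (∀ q' ∈ Qs, (q' : ℤ) ∣ d - (q : ℤ)) → ∀ f g : nebK k K ε,
        (⇑g.1 : ℍ → ℂ) = ε ((d : ℤ) : ZMod M) ^ m • heckeU k q ⇑f.1 →
        CuspForm.heckeULin k hq₂ (J f) = J g := by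
  obtain ⟨j, hj, hT, hU⟩ := exists_twistEmbeddingU k Qs hnd hQs ε
    (periodic_of_trivial Qs hnd (fun q hq => (hQs q hq).1) ε hε) m hm M₂ hM₂
  refine ⟨j ∘ₗ resNeb hge ε, hj.comp (resNeb_injective hge ε), ?_, ?_⟩
  · intro ℓ _ hℓ hℓ₂ f g hfg
    rw [LinearMap.comp_apply, LinearMap.comp_apply, hT ℓ hℓ hℓ₂ (resNeb hge ε f)]
    congr 1
    apply Subtype.ext
    apply DFunLike.coe_injective
    rw [coe_resNeb, hfg, Submodule.coe_smul, CuspForm.IsGLPos.coe_smul, coe_TpNeb,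
      S48.H548.coe_TpL_of_hasNeb hℓ _ (resNeb hge ε f).2, coe_resNeb]
  · intro q hq0 hq₂ d hdu hdq f g hfg
    rw [LinearMap.comp_apply, LinearMap.comp_apply]
    exact hU q hq0 hq₂ d hdu hdq (resNeb hge ε f) (resNeb hge ε g)
      (by rw [coe_resNeb, coe_resNeb, hfg])

end Fermat.Agent.S38.H264
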