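import Fermat.Agent.S38.H264.RelU
import Fermat.Agent.S38.H264.TwistU

/-!
# Row HARD, leaf (ST), bridge MODQ-U (helper264), part 4: the concrete hypothesis and the action

Taylor–Wiles shape (as in helper658's `embHyp_of_odd`): `Γ₁(M) ≤ K ≤ Γ₀(M)`, `Qs` a list of
distinct primes `q' ∥ M` with `Γ₀(M) ∩ Γ₁(∏ Qs) ≤ K` and `γ^(2m+1) ∈ K` for `γ ∈ Γ₀(M)`,
`M · ∏ Qs ∣ N'`.  `S` a set of primes such that every prime `q ∣ N'` OUTSIDE `S` divides `M`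
(the pivots).  `w : ℕ → (ℤ/M)ˣ` with `w ℓ ≡ ℓ` modulo the primes of `Qs` (`ℓ ∉ S` prime).

* `embHypU_of_odd` : `EmbHypU K N' (fun ℓ => w ℓ ^ m) S`;
* `exists_heckeActionU_sub_of_odd` (**MODQ-U**) : for `R` torsion-free and a stable submodule
  `V ⊆ Hom(K, R)` of parabolic classes, a ring homomorphism
  `Ψ : heckeAlgebra N' 2 S →+* End_R V`, `T_ℓ ↦ ⟨w ℓ⟩^m T_ℓ`, `U_q ↦ ⟨w q⟩^m U_q`.
-/

set_option autoImplicit false
set_option linter.unusedSectionVars false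
set_option linter.style.haveILetI false

noncomputable section

namespace Fermat.Agent.S38.H264

open CongruenceSubgroup ModularForm ModularCurve ModularCurve.Period
open UpperHalfPlane hiding I
open Matrix.SpecialLinearGroup Fermat.Agent.Lib.Newform.H803
open Fermat.Agent.S59.TW Fermat.Agent.S59.TW.H653 Fermat.Agent.S59.TW.H658
open scoped Manifold MatrixGroups ModularForm

variable {M : ℕ} [NeZero M] {K : Subgroup SL(2, ℤ)} [K.FiniteIndex]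

/-- **The concrete transfer hypothesis with `U_q`** (Taylor–Wiles shape). -/
theorem embHypU_of_odd (hK : IsMid M K) (Qs : List ℕ) (hnd : Qs.Nodup)
    (hQs : ∀ q ∈ Qs, q.Prime ∧ ∃ M' : ℕ, M = M' * q ∧ Nat.Coprime M' q)
    (hK1 : ∀ γ ∈ Gamma0 M, ((Qs.prod : ℕ) : ℤ) ∣ γ 1 1 - 1 → γ ∈ K)
    (m : ℕ) (hK2 : ∀ γ ∈ Gamma0 M, γ ^ (2 * m + 1) ∈ K)
    {N' : ℕ} [NeZero N'] (hN' : M * Qs.prod ∣ N') (S : Set ℕ)
    (hB : ∀ q : ℕ, q.Prime → q ∣ N' → q ∉ S → q ∣ M)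
    (w : ℕ → (ZMod M)ˣ)
    (hw : ∀ ℓ : ℕ, ℓ.Prime → ℓ ∉ S → ∀ d : ℤ,
      ((d : ℤ) : ZMod M) = ((w ℓ : (ZMod M)ˣ) : ZMod M) → ∀ q' ∈ Qs, (q' : ℤ) ∣ d - (ℓ : ℤ)) :
    EmbHypU K N' (fun ℓ => w ℓ ^ m) S where
  dvd := (Dvd.intro _ rfl).trans hN'
  neg := by
    have h1 : (-1 : SL(2, ℤ)) ∈ Gamma0 M := by
      rw [Gamma0_mem]
      simp
    have h2 := hK2 _ h1
    rwa [Odd.neg_one_pow ⟨m, rfl⟩] at h2
  bad := hB
  emb := fun χ hχ => by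
    have hQM : ((Qs.prod : ℕ) : ℤ) ∣ (M : ℤ) :=
      H564.list_prod_dvd_of_primes Qs hnd (fun q hq => (hQs q hq).1) _ (fun q hq => by
        obtain ⟨-, M', hM, -⟩ := hQs q hq
        exact Int.natCast_dvd_natCast.mpr ⟨M', by rw [hM, mul_comm]⟩)
    -- `χ` is trivial on the units `≡ 1 mod ∏ Qs`
    have hε : ∀ d : ℤ, ((Qs.prod : ℕ) : ℤ) ∣ d - 1 → IsUnit ((d : ℤ) : ZMod M) →
        χ ((d : ℤ) : ZMod M) = 1 := by
      intro d hd hu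
      obtain ⟨v, hv⟩ := hu
      obtain ⟨g, hg⟩ := dUnit_surjective (M := M) v
      have h1 : ((((g : SL(2, ℤ)) 1 1 : ℤ)) : ZMod M) = ((d : ℤ) : ZMod M) := by
        rw [← coe_dUnit, hg, hv]
      have h2 : (M : ℤ) ∣ (g : SL(2, ℤ)) 1 1 - d := by
        rw [← ZMod.intCast_zmod_eq_zero_iff_dvd]
        push_cast
        rw [h1, sub_self]
      have h3 : ((Qs.prod : ℕ) : ℤ) ∣ (g : SL(2, ℤ)) 1 1 - 1 := by
        have := dvd_add (hQM.trans h2) hd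
        rwa [sub_add_sub_cancel] at this
      have h4 := hχ g (hK1 _ g.2 h3)
      rw [hg, hv] at h4
      exact h4
    -- `χ ^ (2 m + 1) = 1`
    have hm : χ ^ (2 * m + 1) = 1 := by
      ext v
      rw [MulChar.pow_apply_coe, MulChar.one_apply_coe, ← map_pow, ← Units.val_pow_eq_pow_val]
      obtain ⟨g, rfl⟩ := dUnit_surjective (M := M) v
      rw [← map_pow]
      exact hχ (g ^ (2 * m + 1)) (hK2 _ g.2)
    have hper := H564.periodic_of_trivial Qs hnd (fun q hq => (hQs q hq).1) χ hε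
    -- the value of `χ` at `w ℓ ^ m`
    have hval : ∀ ℓ : ℕ, χ (((w ℓ ^ m : (ZMod M)ˣ) : (ZMod M)ˣ) : ZMod M) =
        χ ((w ℓ : (ZMod M)ˣ) : ZMod M) ^ m := fun ℓ => by
      rw [Units.val_pow_eq_pow_val, map_pow]
    obtain ⟨J, hJi, hJT, hJU⟩ :=
      exists_twistEmbeddingKU 2 hK.ge Qs hnd hQs χ hε m hm N' hN'
    refine ⟨(J.comp (toNebK hK χ hχ)).toAddMonoidHom,
      hJi.comp (toNebK_injective hK χ hχ), ?_, ?_⟩
    · intro ℓ _ hℓ hℓN hℓS F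
      have hℓp : ℓ.Prime := Fact.out
      have hcop : Nat.Coprime ℓ M := (Nat.Prime.coprime_iff_not_dvd hℓp).mpr hℓ
      obtain ⟨d, hd⟩ := ZMod.intCast_surjective ((w ℓ : (ZMod M)ˣ) : ZMod M)
      have hdu : IsUnit ((d : ℤ) : ZMod M) := hd ▸ (w ℓ).isUnit
      have hℓu : IsUnit ((((ℓ : ℕ) : ℤ) : ℤ) : ZMod M) := by
        rw [Int.cast_natCast, ZMod.isUnit_iff_coprime]
        exact hcop
      have hχw : χ ((w ℓ : (ZMod M)ˣ) : ZMod M) = χ ((ℓ : ℕ) : ZMod M) := by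
        have := hper d (ℓ : ℤ) hdu hℓu (hw ℓ hℓp hℓS d hd)
        rwa [hd, Int.cast_natCast] at this
      refine hJT ℓ hℓ hℓN (toNebK hK χ hχ F) (toNebK hK χ hχ _) ?_
      rw [coe_toNebK, coe_toNebK, coe_nebT, famOp_repsT_eq χ hcop F.2.2, hval, hχw,
        chiZ_apply, Int.cast_natCast]
    · intro q _ hq hqN hqS F
      have hqp : q.Prime := Fact.out
      obtain ⟨d, hd⟩ := ZMod.intCast_surjective ((w q : (ZMod M)ˣ) : ZMod M)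
      have hdu : IsUnit ((d : ℤ) : ZMod M) := hd ▸ (w q).isUnit
      refine hJU q hqp.ne_zero hqN d hdu (hw q hqp hqS d hd) (toNebK hK χ hχ F)
        (toNebK hK χ hχ _) ?_
      rw [coe_toNebK, coe_toNebK, coe_nebU, famOp_repsU_eq, hval, hd]

variable {R : Type*} [CommRing R] [Module.IsTorsionFree ℤ R]

/-- **MODQ-U (Taylor–Wiles shape).**  `K` with `Γ₀(M) ∩ Γ₁(∏ Qs) ≤ K ≤ Γ₀(M)` and
`Γ₀(M)^(2m+1) ⊆ K`, `M · ∏ Qs ∣ N'`, `R` torsion-free, `S` such that the primes `q ∣ N'` outside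
`S` divide `M`, `w ℓ ≡ ℓ` modulo the primes of `Qs`: the Hecke algebra of `Γ₀(N')` away from `S`
(generated by the `T_ℓ` and the `U_q`, `q ∣ N'`, `q ∉ S`) acts on every `R`-submodule
`V ⊆ Hom(K, R)` of parabolic classes stable under the `⟨w ℓ⟩^m T_ℓ` and the `⟨w q⟩^m U_q`,
through `T_ℓ ↦ ⟨w ℓ⟩^m T_ℓ`, `U_q ↦ ⟨w q⟩^m U_q`. -/
theorem exists_heckeActionU_sub_of_odd (hK : IsMid M K) (Qs : List ℕ) (hnd : Qs.Nodup)
    (hQs : ∀ q ∈ Qs, q.Prime ∧ ∃ M' : ℕ, M = M' * q ∧ Nat.Coprime M' q)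
    (hK1 : ∀ γ ∈ Gamma0 M, ((Qs.prod : ℕ) : ℤ) ∣ γ 1 1 - 1 → γ ∈ K)
    (m : ℕ) (hK2 : ∀ γ ∈ Gamma0 M, γ ^ (2 * m + 1) ∈ K)
    {N' : ℕ} [NeZero N'] (hN' : M * Qs.prod ∣ N') (S : Set ℕ)
    (hB : ∀ q : ℕ, q.Prime → q ∣ N' → q ∉ S → q ∣ M)
    (w : ℕ → (ZMod M)ˣ)
    (hw : ∀ ℓ : ℕ, ℓ.Prime → ℓ ∉ S → ∀ d : ℤ,
      ((d : ℤ) : ZMod M) = ((w ℓ : (ZMod M)ˣ) : ZMod M) → ∀ q' ∈ Qs, (q' : ℤ) ∣ d - (ℓ : ℤ))
    (V : Submodule R (Additive K →+ R)) (hpar : ∀ v ∈ V, IsParabolicHom K v)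
    (hstT : ∀ (ℓ : ℕ) [Fact ℓ.Prime], ¬ ℓ ∣ N' → ℓ ∉ S → ∀ v ∈ V,
      diamondU hK (w ℓ ^ m) (TK M K ℓ v) ∈ V)
    (hstU : ∀ (q : ℕ) [Fact q.Prime], q ∣ N' → q ∉ S → ∀ v ∈ V,
      diamondU hK (w q ^ m) (UK K q v) ∈ V) :
    ∃ Ψ : CuspForm.heckeAlgebra N' 2 S →+* Module.End R V,
      (∀ (ℓ : ℕ) [Fact ℓ.Prime] (hℓN : ¬ ℓ ∣ N') (hℓS : ℓ ∉ S) (v : V),
        ((Ψ (CuspForm.heckeAlgebra.T (Fact.out : ℓ.Prime) hℓN hℓS) v : V) :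
          Additive K →+ R) = diamondU hK (w ℓ ^ m) (TK M K ℓ (v : Additive K →+ R))) ∧
      ∀ (q : ℕ) [Fact q.Prime] (hqN : q ∣ N') (hqS : q ∉ S) (v : V),
        ((Ψ (CuspForm.heckeAlgebra.U (Fact.out : q.Prime) hqN hqS) v : V) :
          Additive K →+ R) = diamondU hK (w q ^ m) (UK K q (v : Additive K →+ R)) :=
  exists_heckeActionU_sub hK (embHypU_of_odd hK Qs hnd hQs hK1 m hK2 hN' S hB w hw) V hpar
    hstT hstU

end Fermat.Agent.S38.H264
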