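import Mathlib

/-!
# Row HARD, leaf IA-ST: the transfer of occurrence along a corestriction (helper264)

Pure algebra (Mathlib only).  `T` a commutative ring acting on `V` (`a`), `B` a ring acting on
`V₁` (`Ψ`), `c : V → V₁` additive, intertwining `a (t i)` and `Ψ (b i)` for two families
`t : I → T`, `b : I → B`.

* `cor_lift_apply` : `c (a (P(t)) v) = Ψ (P(b)) (c v)` for every integer noncommutative
  polynomial `P ∈ FreeAlgebra ℤ I`;
* `map_freeAlgebra_lift` : `x (P(t)) = P(x ∘ t)` for a ring homomorphism `x : T → D`;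
* `hocc_of_cor` : if moreover `c v = 0` implies `n • v ∈ W` (a fixed `n ≠ 0`; `W` an additive
  subgroup of `V`) and `x : T → D` (`D` a domain of characteristic `0`) kills every `s ∈ T` with
  `a s V ⊆ W`, then every `P` with `Ψ (P(b)) = 0` satisfies `P(x ∘ t) = 0`.

This is the hypothesis `hocc` of `H53.st_of_action_h53` (`I = GoodIdx N S`, `b = tFamA N S`,
`t i = H.π T_i`), with `c` = the corestriction `V → V₁`, `W = chiRelIA 1 V`.
-/

set_option autoImplicit false

namespace Fermat.Agent.S38.H264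

section Abs

variable {𝒪 : Type*} [CommRing 𝒪] {T B : Type*} [CommRing T] [Ring B]
  {V V₁ : Type*} [AddCommGroup V] [Module 𝒪 V] [AddCommGroup V₁] [Module 𝒪 V₁]
  {I : Type*}

/-- `c ∘ a(P(t)) = Ψ(P(b)) ∘ c`. -/
theorem cor_lift_apply (a : T →+* Module.End 𝒪 V) (Ψ : B →+* Module.End 𝒪 V₁) (c : V →+ V₁)
    (t : I → T) (b : I → B) (hc : ∀ i v, c (a (t i) v) = Ψ (b i) (c v))
    (P : FreeAlgebra ℤ I) (v : V) :
    c (a (FreeAlgebra.lift ℤ t P) v) = Ψ (FreeAlgebra.lift ℤ b P) (c v) := by
  induction P using FreeAlgebra.induction generalizing v with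
  | grade0 n =>
    rw [AlgHom.commutes, AlgHom.commutes, eq_intCast, eq_intCast, map_intCast, map_intCast]
    rw [Module.End.intCast_apply, Module.End.intCast_apply, map_zsmul]
  | grade1 i =>
    rw [FreeAlgebra.lift_ι_apply, FreeAlgebra.lift_ι_apply]
    exact hc i v
  | add x y hx hy =>
    rw [map_add, map_add, map_add, map_add, LinearMap.add_apply, LinearMap.add_apply, map_add,
      hx, hy]
  | mul x y hx hy =>
    rw [map_mul, map_mul, map_mul, map_mul, Module.End.mul_apply, Module.End.mul_apply, hx, hy]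

/-- `x (P(t)) = P(x ∘ t)`. -/
theorem map_freeAlgebra_lift {D : Type*} [CommRing D] (x : T →+* D) (t : I → T)
    (P : FreeAlgebra ℤ I) :
    x (FreeAlgebra.lift ℤ t P) = FreeAlgebra.lift ℤ (fun i => x (t i)) P := by
  induction P using FreeAlgebra.induction with
  | grade0 n =>
    rw [AlgHom.commutes, AlgHom.commutes, eq_intCast, eq_intCast, map_intCast]
  | grade1 i =>
    rw [FreeAlgebra.lift_ι_apply, FreeAlgebra.lift_ι_apply]
  | add x' y' hx hy =>
    rw [map_add, map_add, map_add, hx, hy]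
  | mul x' y' hx hy =>
    rw [map_mul, map_mul, map_mul, hx, hy]

/-- **Transfer of occurrence.**  See the header. -/
theorem hocc_of_cor (a : T →+* Module.End 𝒪 V) (Ψ : B →+* Module.End 𝒪 V₁) (c : V →+ V₁)
    (t : I → T) (b : I → B) (hc : ∀ i v, c (a (t i) v) = Ψ (b i) (c v))
    (W : AddSubgroup V) (n : ℕ) (hn : n ≠ 0) (hker : ∀ v : V, c v = 0 → n • v ∈ W)
    {D : Type*} [CommRing D] [IsDomain D] [CharZero D] (x : T →+* D)
    (hsupp : ∀ s : T, (∀ v : V, a s v ∈ W) → x s = 0)
    (P : FreeAlgebra ℤ I) (hP : Ψ (FreeAlgebra.lift ℤ b P) = 0) :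
    FreeAlgebra.lift ℤ (fun i => x (t i)) P = 0 := by
  rw [← map_freeAlgebra_lift]
  have h1 : ∀ v : V, a ((n : T) * FreeAlgebra.lift ℤ t P) v ∈ W := by
    intro v
    have h2 : c (a (FreeAlgebra.lift ℤ t P) v) = 0 := by
      rw [cor_lift_apply a Ψ c t b hc P v, hP, LinearMap.zero_apply]
    have h3 := hker _ h2
    rw [map_mul, Module.End.mul_apply, map_natCast, Module.End.natCast_apply]
    exact h3
  have h4 := hsupp _ h1
  rw [map_mul, map_natCast] at h4
  rcases mul_eq_zero.mp h4 with h5 | h5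
  · exact absurd (Nat.cast_eq_zero.mp h5) hn
  · exact h5

end Abs

end Fermat.Agent.S38.H264
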