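import Fermat.Agent.S38.H264.PsiU
import Fermat.Agent.S38.IA.Hecke.LevelLemmas

/-!
# Row HARD, leaf IA-ST, piece ST-PSI (helper264): MODQ-U at the level `K₁`, Spec3 vocabulary

`K₁ := KG p L qv = Γ₀(L) ∩ Γ_H(Q)`, `L = ribetLevel p Smin Piv` (`Γ₀` at the pivots, `Γ_H` at the
Taylor–Wiles primes), Betti level `M₁ = gLevel L qv = L · ∏ qv`, `q ∈ Piv` a pivot.
Hecke level `N₁ = L · ∏ qv²` (the twist is at the Taylor–Wiles primes only, so `q ∥ N₁`),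
`S₁ = (Smin ∪ Piv ∪ Q) ∖ {q}`.

* `exists_psiU_KG` : generic base level `L` and family `qq : ι → ℕ`;
* `exists_psiU_K1` : the instance above.

INPUT (from the Betti side, owners of ST-UU / ST-BETTI): `V₁ ⊆ X_{K₁}(𝒪)` parabolic, stable under
the `⟨ℓ⟩^h T_ℓ = tOpTw`, under `U_q` and under the diamond operators, and the identity

  (UU)  `U_q (U_q v) = ⟨s⟩ v` for `v ∈ V₁`,  `s ∈ Γ₀(M₁)`, `d(s) ≡ q` modulo every `qv j`

(`H666.UK_UK_of_new` on the classes killed by both traces to the level without `q`).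
OUTPUT: `Ψ : heckeAlgebra N₁ 2 S₁ →+* End_𝒪 V₁` with `Ψ(T_ℓ) = tOpTw h ℓ` and
`Ψ(U_q) * Ψ(U_q) = 1`: the inputs `Ψ`, `hUU` of `H53.st_of_action_h53` / `H114` POINT-U.
-/

set_option autoImplicit false
set_option linter.unusedSectionVars false
set_option linter.style.haveILetI false

noncomputable section

namespace Fermat.Agent.S38.H264

open CongruenceSubgroup ModularForm ModularCurve ModularCurve.Period
open Matrix.SpecialLinearGroup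
open Fermat.Agent.S59.TW Fermat.Agent.S59.TW.H653 Fermat.Agent.S59.TW.H658
open Fermat.Agent.S59.TW.Aut
open Fermat.Agent.S38.IA Fermat.Agent.S38.IA.Hecke
open scoped MatrixGroups

/-! ## `CongrAt` from a matrix or from the reductions -/

section Congr

variable {M : ℕ} [NeZero M]

/-- The class of `d(g)`, `g ∈ Γ₀(M)`, is `≡ c` modulo the primes `q' ∣ M` of `Qs` as soon as
`d(g) ≡ c` modulo these primes. -/
theorem congrAt_dUnit (Qs : List ℕ) (hQs : ∀ q' ∈ Qs, q' ∣ M) (g : Gamma0 M) (c : ℕ)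
    (h : ∀ q' ∈ Qs, (q' : ℤ) ∣ (g : SL(2, ℤ)) 1 1 - (c : ℤ)) : CongrAt Qs (dUnit M g) c := by
  intro d hd q' hq'
  rw [coe_dUnit] at hd
  have h1 : ((d - (g : SL(2, ℤ)) 1 1 : ℤ) : ZMod M) = 0 := by
    push_cast
    rw [hd, sub_self]
  have h2 : (M : ℤ) ∣ d - (g : SL(2, ℤ)) 1 1 := (ZMod.intCast_zmod_eq_zero_iff_dvd _ _).mp h1
  have h3 : (q' : ℤ) ∣ d - (g : SL(2, ℤ)) 1 1 :=
    (Int.natCast_dvd_natCast.mpr (hQs q' hq')).trans h2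
  have h4 := dvd_add h3 (h q' hq')
  rwa [sub_add_sub_cancel] at h4

end Congr

/-! ## The group `KG` -/

section Group

variable (p L : ℕ) {ι : Type} [Fintype ι] (qq : ι → ℕ)

/-- The list of the primes of the family. -/
def qListU : List ℕ := (Finset.univ : Finset ι).toList.map qq

theorem qListU_prod : (qListU qq).prod = ∏ s, qq s := Finset.prod_map_toList _ _

theorem mem_qListU {q : ℕ} : q ∈ qListU qq ↔ ∃ s, qq s = q := by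
  unfold qListU
  simp

theorem nodup_qListU (hqi : Function.Injective qq) : (qListU qq).Nodup :=
  (Finset.nodup_toList _).map hqi

/-- `Γ₀(M) ∩ Γ₁(∏ qq) ⊆ KG`. -/
theorem mem_KG_of_dvdU {γ : SL(2, ℤ)} (hγ : γ ∈ Gamma0 (gLevel L qq))
    (h : (((qListU qq).prod : ℕ) : ℤ) ∣ γ 1 1 - 1) : γ ∈ KG p L qq := by
  rw [KG, mem_GammaH]
  refine ⟨hγ, ?_⟩
  rw [MonoidHom.mem_ker]
  have h1 : gRed L qq (dUnit _ ⟨γ, hγ⟩) = 1 := by
    funext j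
    apply Units.ext
    rw [gRed_apply]
    show ZMod.castHom (dvd_gLevel L qq j) (ZMod (qq j))
      ((dUnit (gLevel L qq) ⟨γ, hγ⟩ : (ZMod (gLevel L qq))ˣ) : ZMod (gLevel L qq)) = 1
    rw [coe_dUnit, map_intCast]
    have h2 : ((qq j : ℕ) : ℤ) ∣ γ 1 1 - 1 := by
      refine dvd_trans (Int.natCast_dvd_natCast.mpr ?_) h
      rw [qListU_prod]
      exact Finset.dvd_prod_of_mem qq (Finset.mem_univ j)
    have h3 := (ZMod.intCast_zmod_eq_zero_iff_dvd _ _).mpr h2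
    push_cast at h3
    exact sub_eq_zero.mp h3
  show (QuotientGroup.mk' (gPowSub p qq)) (gRed L qq (dUnit _ ⟨γ, hγ⟩)) = 1
  rw [h1, map_one]

variable {p qq}

/-- `γ^(2e+1) ∈ KG` for `γ ∈ Γ₀(M)`, if `2 e ≡ -1` modulo the exponent of `Δ`. -/
theorem pow_mem_KGU {e : ℕ} (he : ∀ s : ι, p ^ padicValNat p (qq s - 1) ∣ 2 * e + 1)
    {γ : SL(2, ℤ)} (hγ : γ ∈ Gamma0 (gLevel L qq)) : γ ^ (2 * e + 1) ∈ KG p L qq := by
  rw [KG, mem_GammaH]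
  refine ⟨Subgroup.pow_mem _ hγ _, ?_⟩
  rw [MonoidHom.mem_ker]
  have h1 : (⟨γ ^ (2 * e + 1), Subgroup.pow_mem _ hγ _⟩ : Gamma0 (gLevel L qq)) =
      (⟨γ, hγ⟩ : Gamma0 (gLevel L qq)) ^ (2 * e + 1) := rfl
  rw [h1, map_pow, map_pow]
  show (QuotientGroup.mk' (gPowSub p qq)) (gRed L qq (dUnit _ ⟨γ, hγ⟩)) ^ (2 * e + 1) = 1
  rw [← map_pow]
  refine (QuotientGroup.eq_one_iff _).mpr ?_
  rw [gPowSub, Subgroup.mem_pi]
  intro j _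
  obtain ⟨c, hc⟩ := he j
  refine ⟨(gRed L qq (dUnit _ ⟨γ, hγ⟩)) j ^ c, ?_⟩
  rw [powMonoidHom_apply, Pi.pow_apply, hc, pow_mul']

variable (qq)

/-- Each `qq j` exactly divides the Betti level. -/
theorem exists_gLevel_eqU [DecidableEq ι] (hqi : Function.Injective qq)
    (hq : ∀ i, (qq i).Prime ∧ Nat.Coprime L (qq i)) (j : ι) :
    ∃ M' : ℕ, gLevel L qq = M' * qq j ∧ Nat.Coprime M' (qq j) := by
  refine ⟨L * ∏ i ∈ Finset.univ.erase j, qq i, ?_, ?_⟩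
  · rw [gLevel, ← Finset.mul_prod_erase Finset.univ qq (Finset.mem_univ j)]
    ring
  · refine Nat.Coprime.mul_left (hq j).2 ?_
    refine Nat.Coprime.prod_left fun i hi => ?_
    exact (Nat.coprime_primes (hq i).1 (hq j).1).mpr
      fun h => (Finset.ne_of_mem_erase hi) (hqi h)

end Group

/-! ## `Ψ` at the level `KG` -/

section KG

variable (p L : ℕ) {ι : Type} [Fintype ι] (qq : ι → ℕ)

/-- **MODQ-U at `KG p L qq`, with `Ψ(U_q)² = 1`** (generic base level `L`, `q ∣ L`). -/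
theorem exists_psiU_KG (hL : L ≠ 0) (hqi : Function.Injective qq)
    (hq : ∀ i, (qq i).Prime ∧ Nat.Coprime L (qq i))
    {e : ℕ} (he : ∀ s : ι, p ^ padicValNat p (qq s - 1) ∣ 2 * e + 1)
    {N' : ℕ} [NeZero N'] (hN' : L * ∏ s, qq s ^ 2 ∣ N') (S : Set ℕ)
    {q : ℕ} [Fact q.Prime] (hqN : q ∣ N') (hqS : q ∉ S) (hqL : q ∣ L)
    (hSq : ∀ ℓ : ℕ, ℓ.Prime → ℓ ∣ N' → ℓ ∉ S → ℓ = q)
    (𝒪 : Type) [CommRing 𝒪] [Module.IsTorsionFree ℤ 𝒪]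
    (V : Submodule 𝒪 (Additive (KG p L qq) →+ 𝒪))
    (hpar : ∀ v ∈ V, IsParabolicHom (KG p L qq) v)
    (hstT : ∀ (ℓ : ℕ) (hℓ : ℓ.Prime), ¬ ℓ ∣ N' → ℓ ∉ S → ∀ v ∈ V,
      tOpTw (isMid_KG p L qq) 𝒪 e ℓ hℓ v ∈ V)
    (hstU : ∀ v ∈ V, UK (KG p L qq) q v ∈ V)
    (hstD : ∀ (u : (ZMod (gLevel L qq))ˣ), ∀ v ∈ V, diamondU (isMid_KG p L qq) u v ∈ V)
    (hUU : ∀ v ∈ V, ∃ s : Gamma0 (gLevel L qq),
      (∀ j : ι, ((qq j : ℕ) : ℤ) ∣ (s : SL(2, ℤ)) 1 1 - (q : ℤ)) ∧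
      UK (KG p L qq) q (UK (KG p L qq) q v) = diamond (isMid_KG p L qq) s v) :
    ∃ Ψ : CuspForm.heckeAlgebra N' 2 S →+* Module.End 𝒪 V,
      (∀ (ℓ : ℕ) (hℓ : ℓ.Prime) (hℓN : ¬ ℓ ∣ N') (hℓS : ℓ ∉ S) (v : V),
        ((Ψ (CuspForm.heckeAlgebra.T hℓ hℓN hℓS) v : V) : Additive (KG p L qq) →+ 𝒪) =
          tOpTw (isMid_KG p L qq) 𝒪 e ℓ hℓ (v : Additive (KG p L qq) →+ 𝒪)) ∧
      Ψ (CuspForm.heckeAlgebra.U (Fact.out : q.Prime) hqN hqS) *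
        Ψ (CuspForm.heckeAlgebra.U (Fact.out : q.Prime) hqN hqS) = 1 := by
  classical
  haveI : NeZero (gLevel L qq) := ⟨gLevel_ne_zero L qq hL fun s => (hq s).1⟩
  haveI : (KG p L qq).FiniteIndex :=
    Fermat.Agent.S59.TW.H564.finiteIndex_of_Gamma1_le (isMid_KG p L qq).ge
  have hQs : ∀ q' ∈ qListU qq, q'.Prime ∧
      ∃ M' : ℕ, gLevel L qq = M' * q' ∧ Nat.Coprime M' q' := fun q' hq' => by
    obtain ⟨j, rfl⟩ := (mem_qListU qq).mp hq'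
    exact ⟨(hq j).1, exists_gLevel_eqU L qq hqi hq j⟩
  have hQsM : ∀ q' ∈ qListU qq, q' ∣ gLevel L qq := fun q' hq' => by
    obtain ⟨-, M', hM, -⟩ := hQs q' hq'
    exact ⟨M', by rw [hM, mul_comm]⟩
  have hMN : gLevel L qq * (qListU qq).prod ∣ N' := by
    refine Dvd.dvd.trans (dvd_of_eq ?_) hN'
    rw [qListU_prod, gLevel, Finset.prod_pow]
    ring
  obtain ⟨Ψ, hΨT, -, hΨUU⟩ := exists_psiU_sq_eq_one (R := 𝒪) (isMid_KG p L qq) (qListU qq)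
    (nodup_qListU qq hqi) hQs (fun γ hγ hd => mem_KG_of_dvdU p L qq hγ hd) e
    (fun γ hγ => pow_mem_KGU L he hγ) hMN S hqN hqS (hqL.trans (self_dvd_gLevel L qq)) hSq
    V hpar hstT hstU hstD
    (fun v hv => by
      obtain ⟨s, hs, hsv⟩ := hUU v hv
      refine ⟨dUnit _ s, congrAt_dUnit (qListU qq) hQsM s q fun q' hq' => ?_, ?_⟩
      · obtain ⟨j, rfl⟩ := (mem_qListU qq).mp hq'
        exact hs j
      · rw [hsv, diamond_eq_diamondU])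
  exact ⟨Ψ, hΨT, hΨUU⟩

end KG

/-! ## The instance `K₁ = Γ₀(L) ∩ Γ_H(Q)`, `L = ribetLevel p Smin Piv` -/

section K1

variable (p : ℕ) (Smin Piv : Finset ℕ) {r : ℕ} (qv : Fin r → ℕ)

theorem ribetLevel_ne_zero (hSp : ∀ x ∈ Smin, x.Prime) (hPp : ∀ x ∈ Piv, x.Prime) :
    ribetLevel p Smin Piv ≠ 0 := by
  unfold ribetLevel
  refine Nat.mul_ne_zero ?_ ?_
  · exact Finset.prod_ne_zero_iff.mpr fun x hx => (hSp x (Finset.mem_of_mem_erase hx)).ne_zero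
  · exact Finset.prod_ne_zero_iff.mpr fun x hx => (hPp x hx).ne_zero

/-- A prime dividing `ribetLevel` lies in `Smin ∪ Piv`. -/
theorem mem_of_dvd_ribetLevel (hSp : ∀ x ∈ Smin, x.Prime) (hPp : ∀ x ∈ Piv, x.Prime)
    {ℓ : ℕ} (hℓ : ℓ.Prime) (h : ℓ ∣ ribetLevel p Smin Piv) : ℓ ∈ Smin ∪ Piv := by
  unfold ribetLevel at h
  rcases (Nat.Prime.dvd_mul hℓ).mp h with h1 | h1
  · obtain ⟨x, hx, hℓx⟩ := (Prime.dvd_finsetProd_iff hℓ.prime _).mp h1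
    have hxp := hSp x (Finset.mem_of_mem_erase hx)
    rw [(Nat.prime_dvd_prime_iff_eq hℓ hxp).mp hℓx]
    exact Finset.mem_union_left _ (Finset.mem_of_mem_erase hx)
  · obtain ⟨x, hx, hℓx⟩ := (Prime.dvd_finsetProd_iff hℓ.prime _).mp h1
    have hxp := hPp x hx
    rw [(Nat.prime_dvd_prime_iff_eq hℓ hxp).mp hℓx]
    exact Finset.mem_union_right _ hx

/-- A prime outside `Smin ∪ Piv` is prime to `ribetLevel`. -/
theorem coprime_ribetLevel (hSp : ∀ x ∈ Smin, x.Prime) (hPp : ∀ x ∈ Piv, x.Prime)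
    {ℓ : ℕ} (hℓ : ℓ.Prime) (h : ℓ ∉ Smin ∪ Piv) : Nat.Coprime (ribetLevel p Smin Piv) ℓ := by
  rw [Nat.coprime_comm, Nat.Prime.coprime_iff_not_dvd hℓ]
  exact fun hd => h (mem_of_dvd_ribetLevel p Smin Piv hSp hPp hℓ hd)

theorem dvd_ribetLevel_of_mem {q : ℕ} (hq : q ∈ Piv) : q ∣ ribetLevel p Smin Piv :=
  Dvd.dvd.mul_left (Finset.dvd_prod_of_mem _ hq) _

/-- **ST-PSI: MODQ-U at `K₁ = KG p (ribetLevel p Smin Piv) qv`, with `Ψ(U_q)² = 1`.**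
See the header. -/
theorem exists_psiU_K1 (hSp : ∀ x ∈ Smin, x.Prime) (hPp : ∀ x ∈ Piv, x.Prime)
    (hqi : Function.Injective qv) (hqv : ∀ j, (qv j).Prime ∧ qv j ∉ Smin ∪ Piv)
    {h : ℕ} (hh : IsHalf p qv h)
    [NeZero (ribetLevel p Smin Piv * ∏ j, qv j ^ 2)]
    {q : ℕ} [Fact q.Prime] (hqP : q ∈ Piv)
    (hqN : q ∣ ribetLevel p Smin Piv * ∏ j, qv j ^ 2)
    (hqS : q ∉ (↑((Smin ∪ Piv ∪ Finset.univ.image qv).erase q) : Set ℕ))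
    (𝒪 : Type) [CommRing 𝒪] [Module.IsTorsionFree ℤ 𝒪]
    (V : Submodule 𝒪 (Additive (KG p (ribetLevel p Smin Piv) qv) →+ 𝒪))
    (hpar : ∀ v ∈ V, IsParabolicHom (KG p (ribetLevel p Smin Piv) qv) v)
    (hstT : ∀ (ℓ : ℕ) (hℓ : ℓ.Prime), ¬ ℓ ∣ ribetLevel p Smin Piv * ∏ j, qv j ^ 2 →
      ℓ ∉ (↑((Smin ∪ Piv ∪ Finset.univ.image qv).erase q) : Set ℕ) → ∀ v ∈ V,
      tOpTw (isMid_KG p (ribetLevel p Smin Piv) qv) 𝒪 h ℓ hℓ v ∈ V)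
    (hstU : ∀ v ∈ V, UK (KG p (ribetLevel p Smin Piv) qv) q v ∈ V)
    (hstD : ∀ (u : (ZMod (gLevel (ribetLevel p Smin Piv) qv))ˣ), ∀ v ∈ V,
      diamondU (isMid_KG p (ribetLevel p Smin Piv) qv) u v ∈ V)
    (hUU : ∀ v ∈ V, ∃ s : Gamma0 (gLevel (ribetLevel p Smin Piv) qv),
      (∀ j : Fin r, ((qv j : ℕ) : ℤ) ∣ (s : SL(2, ℤ)) 1 1 - (q : ℤ)) ∧
      UK (KG p (ribetLevel p Smin Piv) qv) q (UK (KG p (ribetLevel p Smin Piv) qv) q v) =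
        diamond (isMid_KG p (ribetLevel p Smin Piv) qv) s v) :
    ∃ Ψ : CuspForm.heckeAlgebra (ribetLevel p Smin Piv * ∏ j, qv j ^ 2) 2
        (↑((Smin ∪ Piv ∪ Finset.univ.image qv).erase q) : Set ℕ) →+* Module.End 𝒪 V,
      (∀ (ℓ : ℕ) (hℓ : ℓ.Prime) (hℓN : ¬ ℓ ∣ ribetLevel p Smin Piv * ∏ j, qv j ^ 2)
        (hℓS : ℓ ∉ (↑((Smin ∪ Piv ∪ Finset.univ.image qv).erase q) : Set ℕ)) (v : V),
        ((Ψ (CuspForm.heckeAlgebra.T hℓ hℓN hℓS) v : V) :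
            Additive (KG p (ribetLevel p Smin Piv) qv) →+ 𝒪) =
          tOpTw (isMid_KG p (ribetLevel p Smin Piv) qv) 𝒪 h ℓ hℓ
            (v : Additive (KG p (ribetLevel p Smin Piv) qv) →+ 𝒪)) ∧
      Ψ (CuspForm.heckeAlgebra.U (Fact.out : q.Prime) hqN hqS) *
        Ψ (CuspForm.heckeAlgebra.U (Fact.out : q.Prime) hqN hqS) = 1 := by
  classical
  refine exists_psiU_KG p (ribetLevel p Smin Piv) qv
    (ribetLevel_ne_zero p Smin Piv hSp hPp) hqi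
    (fun j => ⟨(hqv j).1, coprime_ribetLevel p Smin Piv hSp hPp (hqv j).1 (hqv j).2⟩)
    hh (dvd_refl _) _ hqN hqS (dvd_ribetLevel_of_mem p Smin Piv hqP) ?_ 𝒪 V hpar hstT hstU hstD hUU
  intro ℓ hℓ hℓN hℓS
  by_contra hℓq
  apply hℓS
  rw [Finset.mem_coe, Finset.mem_erase]
  refine ⟨hℓq, ?_⟩
  rcases (Nat.Prime.dvd_mul hℓ).mp hℓN with h1 | h1
  · exact Finset.mem_union_left _ (mem_of_dvd_ribetLevel p Smin Piv hSp hPp hℓ h1)
  · obtain ⟨j, -, hℓj⟩ := (Prime.dvd_finsetProd_iff hℓ.prime _).mp h1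
    have h2 : ℓ ∣ qv j := hℓ.dvd_of_dvd_pow hℓj
    rw [(Nat.prime_dvd_prime_iff_eq hℓ (hqv j).1).mp h2]
    exact Finset.mem_union_right _ (Finset.mem_image.mpr ⟨j, Finset.mem_univ _, rfl⟩)

/-- A unit of `ℤ/M₁` congruent to `q` modulo every Taylor–Wiles prime (Chinese remainder
theorem, `gRed_surjective`). -/
theorem exists_unit_congr (L : ℕ) (hL : L ≠ 0) (hqi : Function.Injective qv)
    (hqv : ∀ j, (qv j).Prime) {q : ℕ} (hq : ∀ j, Nat.Coprime q (qv j)) :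
    ∃ u : (ZMod (gLevel L qv))ˣ, ∀ d : ℤ,
      ((d : ℤ) : ZMod (gLevel L qv)) = ((u : (ZMod (gLevel L qv))ˣ) : ZMod (gLevel L qv)) →
        ∀ j, (qv j : ℤ) ∣ d - (q : ℤ) := by
  obtain ⟨u, hu⟩ := gRed_surjective L qv hL hqi hqv (fun j => ZMod.unitOfCoprime q (hq j))
  refine ⟨u, fun d hd j => ?_⟩
  have h1 : ((gRed L qv u j : (ZMod (qv j))ˣ) : ZMod (qv j)) = (q : ZMod (qv j)) := by
    rw [hu]
    rfl
  rw [gRed_apply, ZMod.unitsMap_val, ← hd] at h1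
  have h2 : ((d : ℤ) : ZMod (qv j)) = (q : ZMod (qv j)) := by
    rw [← h1]
    have : CharP (ZMod (qv j)) (qv j) := ZMod.charP _
    exact (ZMod.cast_intCast (dvd_gLevel L qv j) d).symm
  rw [← ZMod.intCast_zmod_eq_zero_iff_dvd]
  push_cast
  rw [h2, sub_self]

/-- **ST-PSI, with (UU) in the form of `H593.IAStUUStatement`**: the hypothesis `hUU` is the
identity `U_q (U_q y) = ⟨u⟩ y` for EVERY unit `u ≡ q` modulo the Taylor–Wiles primes. -/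
theorem exists_psiU_K1_forall (hSp : ∀ x ∈ Smin, x.Prime) (hPp : ∀ x ∈ Piv, x.Prime)
    (hqi : Function.Injective qv) (hqv : ∀ j, (qv j).Prime ∧ qv j ∉ Smin ∪ Piv)
    {h : ℕ} (hh : IsHalf p qv h)
    [NeZero (ribetLevel p Smin Piv * ∏ j, qv j ^ 2)]
    {q : ℕ} [Fact q.Prime] (hqP : q ∈ Piv)
    (hqN : q ∣ ribetLevel p Smin Piv * ∏ j, qv j ^ 2)
    (hqS : q ∉ (↑((Smin ∪ Piv ∪ Finset.univ.image qv).erase q) : Set ℕ))
    (𝒪 : Type) [CommRing 𝒪] [Module.IsTorsionFree ℤ 𝒪]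
    (V : Submodule 𝒪 (Additive (KG p (ribetLevel p Smin Piv) qv) →+ 𝒪))
    (hpar : ∀ v ∈ V, IsParabolicHom (KG p (ribetLevel p Smin Piv) qv) v)
    (hstT : ∀ (ℓ : ℕ) (hℓ : ℓ.Prime), ¬ ℓ ∣ ribetLevel p Smin Piv * ∏ j, qv j ^ 2 →
      ℓ ∉ (↑((Smin ∪ Piv ∪ Finset.univ.image qv).erase q) : Set ℕ) → ∀ v ∈ V,
      tOpTw (isMid_KG p (ribetLevel p Smin Piv) qv) 𝒪 h ℓ hℓ v ∈ V)
    (hstU : ∀ v ∈ V, UK (KG p (ribetLevel p Smin Piv) qv) q v ∈ V)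
    (hstD : ∀ (u : (ZMod (gLevel (ribetLevel p Smin Piv) qv))ˣ), ∀ v ∈ V,
      diamondU (isMid_KG p (ribetLevel p Smin Piv) qv) u v ∈ V)
    (hUU : ∀ u : (ZMod (gLevel (ribetLevel p Smin Piv) qv))ˣ,
      (∀ d : ℤ, ((d : ℤ) : ZMod (gLevel (ribetLevel p Smin Piv) qv)) =
          ((u : (ZMod (gLevel (ribetLevel p Smin Piv) qv))ˣ) :
            ZMod (gLevel (ribetLevel p Smin Piv) qv)) →
        ∀ j, (qv j : ℤ) ∣ d - (q : ℤ)) →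
      ∀ y ∈ V, UK (KG p (ribetLevel p Smin Piv) qv) q
          (UK (KG p (ribetLevel p Smin Piv) qv) q y) =
        diamondU (isMid_KG p (ribetLevel p Smin Piv) qv) u y) :
    ∃ Ψ : CuspForm.heckeAlgebra (ribetLevel p Smin Piv * ∏ j, qv j ^ 2) 2
        (↑((Smin ∪ Piv ∪ Finset.univ.image qv).erase q) : Set ℕ) →+* Module.End 𝒪 V,
      (∀ (ℓ : ℕ) (hℓ : ℓ.Prime) (hℓN : ¬ ℓ ∣ ribetLevel p Smin Piv * ∏ j, qv j ^ 2)
        (hℓS : ℓ ∉ (↑((Smin ∪ Piv ∪ Finset.univ.image qv).erase q) : Set ℕ)) (v : V),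
        ((Ψ (CuspForm.heckeAlgebra.T hℓ hℓN hℓS) v : V) :
            Additive (KG p (ribetLevel p Smin Piv) qv) →+ 𝒪) =
          tOpTw (isMid_KG p (ribetLevel p Smin Piv) qv) 𝒪 h ℓ hℓ
            (v : Additive (KG p (ribetLevel p Smin Piv) qv) →+ 𝒪)) ∧
      Ψ (CuspForm.heckeAlgebra.U (Fact.out : q.Prime) hqN hqS) *
        Ψ (CuspForm.heckeAlgebra.U (Fact.out : q.Prime) hqN hqS) = 1 := by
  classical
  have hqp : q.Prime := Fact.out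
  have hL := ribetLevel_ne_zero p Smin Piv hSp hPp
  haveI : NeZero (gLevel (ribetLevel p Smin Piv) qv) :=
    ⟨gLevel_ne_zero _ qv hL fun j => (hqv j).1⟩
  obtain ⟨u, hu⟩ := exists_unit_congr qv (ribetLevel p Smin Piv) hL hqi (fun j => (hqv j).1)
    (q := q) (fun j => (Nat.coprime_primes hqp (hqv j).1).mpr fun hqj =>
      (hqv j).2 (hqj ▸ Finset.mem_union_right _ hqP))
  obtain ⟨s, hs⟩ := dUnit_surjective (M := gLevel (ribetLevel p Smin Piv) qv) u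
  refine exists_psiU_K1 p Smin Piv qv hSp hPp hqi hqv hh hqP hqN hqS 𝒪 V hpar hstT hstU hstD
    fun v hv => ⟨s, fun j => ?_, ?_⟩
  · refine hu _ ?_ j
    rw [← hs, coe_dUnit]
  · rw [hUU u hu v hv, diamond_eq_diamondU, hs]

end K1

end Fermat.Agent.S38.H264
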