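import Fermat.Agent.S38.H264.ActionU
import Fermat.Agent.S59.TW.Aut.Spec

/-!
# Row HARD, leaf IA-ST, bridge MODQ-U (helper264), part 6: `Ψ(U_q)² = 1` from the identity (UU)

Mid group `Γ₁(M) ≤ K ≤ Γ₀(M)` of Taylor–Wiles shape (`Γ₀(M) ∩ Γ₁(∏ Qs) ≤ K`, `γ^(2m+1) ∈ K`),
`q ∣ M` THE prime of `N'` outside `S` (the pivot), `V ⊆ Hom(K, R)` a submodule of parabolic
classes stable under the `⟨ℓ⟩^m T_ℓ` (`= Aut.tOpTw hK R m ℓ`), under `U_q` and under the diamond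
operators, on which the identity (UU) holds:

  `U_q (U_q v) = ⟨u⟩ v`,   `u ≡ q` modulo the primes of `Qs`.

Then (`exists_psiU_sq_eq_one`) there is a ring homomorphism
`Ψ : heckeAlgebra N' 2 S →+* End_R V` with `Ψ(T_ℓ) = ⟨ℓ⟩^m T_ℓ` and `Ψ(U_q) * Ψ(U_q) = 1`:
exactly the inputs `Ψ`, `hUU` of `H53.st_of_action_h53` / `H114` POINT-U.

(`Ψ(U_q) = ⟨w_q⟩^m U_q` with `w_q ≡ q` modulo the primes of `Qs`, so
`Ψ(U_q)² = ⟨w_q⟩^(2m) ⟨u⟩ = ⟨w_q⟩^(2m+1) ⟨w_q⁻¹ u⟩ = 1`.)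
-/

set_option autoImplicit false
set_option linter.unusedSectionVars false
set_option linter.style.haveILetI false

noncomputable section

namespace Fermat.Agent.S38.H264

open CongruenceSubgroup ModularForm ModularCurve ModularCurve.Period
open Matrix.SpecialLinearGroup
open Fermat.Agent.S59.TW Fermat.Agent.S59.TW.H653 Fermat.Agent.S59.TW.H658
open Fermat.Agent.S59.TW.Aut
open scoped MatrixGroups

variable {M : ℕ} [NeZero M] {K : Subgroup SL(2, ℤ)}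

/-- `u ≡ c` modulo every prime of `Qs`, for a unit `u` of `ℤ/M` (integer form, as in the
hypothesis `hw` of `exists_heckeActionU_sub_of_odd`). -/
def CongrAt (Qs : List ℕ) (u : (ZMod M)ˣ) (c : ℕ) : Prop :=
  ∀ d : ℤ, ((d : ℤ) : ZMod M) = ((u : (ZMod M)ˣ) : ZMod M) → ∀ q' ∈ Qs, (q' : ℤ) ∣ d - (c : ℤ)

/-- The reduction of a unit `u ≡ c` modulo a prime `q' ∈ Qs`, `q' ∣ M`. -/
theorem CongrAt.castHom_eq {Qs : List ℕ} {u : (ZMod M)ˣ} {c : ℕ} (h : CongrAt Qs u c)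
    {q' : ℕ} (hq' : q' ∈ Qs) (hq'M : q' ∣ M) :
    ZMod.castHom hq'M (ZMod q') ((u : (ZMod M)ˣ) : ZMod M) = (c : ZMod q') := by
  obtain ⟨d, hd⟩ := ZMod.intCast_surjective ((u : (ZMod M)ˣ) : ZMod M)
  have h1 := h d hd q' hq'
  have h2 : ((d : ℤ) : ZMod q') = (c : ZMod q') := by
    have h3 := (ZMod.intCast_zmod_eq_zero_iff_dvd (d - (c : ℤ)) q').mpr h1
    push_cast at h3
    exact sub_eq_zero.mp h3
  rw [← hd, map_intCast, h2]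

/-- Two units congruent to the same `c` modulo the primes of `Qs` have the same diamond
operator on `X_K`, if `Γ₀(M) ∩ Γ₁(∏ Qs) ≤ K`. -/
theorem diamondU_eq_of_congrAt (hK : IsMid M K) (Qs : List ℕ) (hnd : Qs.Nodup)
    (hQs : ∀ q ∈ Qs, q.Prime ∧ q ∣ M)
    (hK1 : ∀ γ ∈ Gamma0 M, ((Qs.prod : ℕ) : ℤ) ∣ γ 1 1 - 1 → γ ∈ K)
    {u u' : (ZMod M)ˣ} {c : ℕ} (hu : CongrAt Qs u c) (hu' : CongrAt Qs u' c)
    {A : Type*} [AddCommGroup A] (φ : Additive K →+ A) :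
    diamondU hK u φ = diamondU hK u' φ := by
  obtain ⟨γ, hγ⟩ := dUnit_surjective (M := M) (u'⁻¹ * u)
  have hmem : (γ : SL(2, ℤ)) ∈ K := by
    refine hK1 _ γ.2 ?_
    refine H564.list_prod_dvd_of_primes Qs hnd (fun q hq => (hQs q hq).1) _ fun q' hq' => ?_
    have hq'M := (hQs q' hq').2
    have e1 := hu.castHom_eq hq' hq'M
    have e2 := hu'.castHom_eq hq' hq'M
    have e3 : ZMod.castHom hq'M (ZMod q') (((u'⁻¹ : (ZMod M)ˣ) : (ZMod M)ˣ) : ZMod M) *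
        ZMod.castHom hq'M (ZMod q') ((u' : (ZMod M)ˣ) : ZMod M) = 1 := by
      rw [← map_mul, ← Units.val_mul, inv_mul_cancel, Units.val_one, map_one]
    have e4 : ZMod.castHom hq'M (ZMod q') (((u'⁻¹ * u : (ZMod M)ˣ) : (ZMod M)ˣ) : ZMod M)
        = 1 := by
      rw [Units.val_mul, map_mul, e1, ← e2, e3]
    have e5 : ((((γ : SL(2, ℤ)) 1 1 : ℤ)) : ZMod M) =
        (((u'⁻¹ * u : (ZMod M)ˣ) : (ZMod M)ˣ) : ZMod M) := by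
      rw [← coe_dUnit, hγ]
    have e6 : ((((γ : SL(2, ℤ)) 1 1 : ℤ)) : ZMod q') = 1 := by
      rw [← e4, ← e5, map_intCast]
    rw [← ZMod.intCast_zmod_eq_zero_iff_dvd]
    push_cast
    rw [e6, sub_self]
  have h1 : u = u' * (u'⁻¹ * u) := by group
  rw [h1, diamondU_mul, ← hγ, diamondU_of_mem hK hmem]

/-- `⟨u⟩^(2m+1) = 1` on `X_K` if `γ^(2m+1) ∈ K` for `γ ∈ Γ₀(M)`. -/
theorem diamondU_pow_half (hK : IsMid M K) (m : ℕ)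
    (hK2 : ∀ γ ∈ Gamma0 M, γ ^ (2 * m + 1) ∈ K) (u : (ZMod M)ˣ)
    {A : Type*} [AddCommGroup A] (φ : Additive K →+ A) :
    diamondU hK (u ^ (2 * m + 1)) φ = φ := by
  obtain ⟨γ, rfl⟩ := dUnit_surjective (M := M) u
  rw [← map_pow]
  exact diamondU_of_mem hK (hK2 _ γ.2) φ

variable [K.FiniteIndex] {R : Type} [CommRing R] [Module.IsTorsionFree ℤ R]

/-- **`Ψ` with `Ψ(U_q)² = 1`.**  See the header. -/
theorem exists_psiU_sq_eq_one (hK : IsMid M K) (Qs : List ℕ) (hnd : Qs.Nodup)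
    (hQs : ∀ q ∈ Qs, q.Prime ∧ ∃ M' : ℕ, M = M' * q ∧ Nat.Coprime M' q)
    (hK1 : ∀ γ ∈ Gamma0 M, ((Qs.prod : ℕ) : ℤ) ∣ γ 1 1 - 1 → γ ∈ K)
    (m : ℕ) (hK2 : ∀ γ ∈ Gamma0 M, γ ^ (2 * m + 1) ∈ K)
    {N' : ℕ} [NeZero N'] (hN' : M * Qs.prod ∣ N') (S : Set ℕ)
    {q : ℕ} [Fact q.Prime] (hqN : q ∣ N') (hqS : q ∉ S) (hqM : q ∣ M)
    (hSq : ∀ ℓ : ℕ, ℓ.Prime → ℓ ∣ N' → ℓ ∉ S → ℓ = q)
    (V : Submodule R (Additive K →+ R)) (hpar : ∀ v ∈ V, IsParabolicHom K v)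
    (hstT : ∀ (ℓ : ℕ) (hℓ : ℓ.Prime), ¬ ℓ ∣ N' → ℓ ∉ S → ∀ v ∈ V, tOpTw hK R m ℓ hℓ v ∈ V)
    (hstU : ∀ v ∈ V, UK K q v ∈ V)
    (hstD : ∀ (u : (ZMod M)ˣ), ∀ v ∈ V, diamondU hK u v ∈ V)
    (hUU : ∀ v ∈ V, ∃ u : (ZMod M)ˣ, CongrAt Qs u q ∧ UK K q (UK K q v) = diamondU hK u v) :
    ∃ Ψ : CuspForm.heckeAlgebra N' 2 S →+* Module.End R V,
      (∀ (ℓ : ℕ) (hℓ : ℓ.Prime) (hℓN : ¬ ℓ ∣ N') (hℓS : ℓ ∉ S) (v : V),
        ((Ψ (CuspForm.heckeAlgebra.T hℓ hℓN hℓS) v : V) : Additive K →+ R) =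
          tOpTw hK R m ℓ hℓ (v : Additive K →+ R)) ∧
      (∃ wq : (ZMod M)ˣ, CongrAt Qs wq q ∧ ∀ v : V,
        ((Ψ (CuspForm.heckeAlgebra.U (Fact.out : q.Prime) hqN hqS) v : V) : Additive K →+ R) =
          diamondU hK (wq ^ m) (UK K q (v : Additive K →+ R))) ∧
      Ψ (CuspForm.heckeAlgebra.U (Fact.out : q.Prime) hqN hqS) *
        Ψ (CuspForm.heckeAlgebra.U (Fact.out : q.Prime) hqN hqS) = 1 := by
  classical
  have hqp : q.Prime := Fact.out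
  have hQs' : ∀ q' ∈ Qs, q'.Prime ∧ q' ∣ M := fun q' hq' => by
    obtain ⟨hp, M', hM, -⟩ := hQs q' hq'
    exact ⟨hp, ⟨M', by rw [hM, mul_comm]⟩⟩
  have hMN : M ∣ N' := (Dvd.intro _ rfl).trans hN'
  -- the unit `w_q`
  obtain ⟨wq, hwq, -⟩ := hUU 0 V.zero_mem
  set w : ℕ → (ZMod M)ˣ := fun ℓ => if ℓ = q then wq else uOf M ℓ with hw_def
  have hwq' : w q = wq := by simp [hw_def]
  have hwℓ : ∀ ℓ : ℕ, ℓ ≠ q → w ℓ = uOf M ℓ := fun ℓ hℓ => by simp [hw_def, hℓ]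
  have hw : ∀ ℓ : ℕ, ℓ.Prime → ℓ ∉ S → ∀ d : ℤ,
      ((d : ℤ) : ZMod M) = ((w ℓ : (ZMod M)ˣ) : ZMod M) → ∀ q' ∈ Qs, (q' : ℤ) ∣ d - (ℓ : ℤ) := by
    intro ℓ hℓ hℓS d hd q' hq'
    by_cases hℓq : ℓ = q
    · subst hℓq
      rw [hwq'] at hd
      exact hwq d hd q' hq'
    · rw [hwℓ ℓ hℓq] at hd
      have hℓN : ¬ ℓ ∣ N' := fun h => hℓq (hSq ℓ hℓ h hℓS)
      have hℓM : ¬ ℓ ∣ M := fun h => hℓN (h.trans hMN)
      have hcop : Nat.Coprime ℓ M := (Nat.Prime.coprime_iff_not_dvd hℓ).mpr hℓM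
      rw [coe_uOf hcop] at hd
      have h1 : ((d - (ℓ : ℤ) : ℤ) : ZMod M) = 0 := by
        push_cast
        rw [hd, sub_self]
      have h2 : (M : ℤ) ∣ d - (ℓ : ℤ) := (ZMod.intCast_zmod_eq_zero_iff_dvd _ _).mp h1
      exact (Int.natCast_dvd_natCast.mpr (hQs' q' hq').2).trans h2
  have hB : ∀ q' : ℕ, q'.Prime → q' ∣ N' → q' ∉ S → q' ∣ M := fun q' hq' hq'N hq'S => by
    rw [hSq q' hq' hq'N hq'S]
    exact hqM
  obtain ⟨Ψ, hΨT, hΨU⟩ := exists_heckeActionU_sub_of_odd (R := R) hK Qs hnd hQs hK1 m hK2 hN' S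
    hB w hw V hpar
    (fun ℓ _ hℓN hℓS v hv => by
      have hℓp : ℓ.Prime := Fact.out
      have hℓq : ℓ ≠ q := fun h => hℓN (h ▸ hqN)
      rw [hwℓ ℓ hℓq]
      exact hstT ℓ hℓp hℓN hℓS v hv)
    (fun q' _ hq'N hq'S v hv => by
      have hq'p : q'.Prime := Fact.out
      obtain rfl := hSq q' hq'p hq'N hq'S
      exact hstD _ _ (hstU v hv))
  have hΨT' : ∀ (ℓ : ℕ) (hℓ : ℓ.Prime) (hℓN : ¬ ℓ ∣ N') (hℓS : ℓ ∉ S) (v : V),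
      ((Ψ (CuspForm.heckeAlgebra.T hℓ hℓN hℓS) v : V) : Additive K →+ R) =
        tOpTw hK R m ℓ hℓ (v : Additive K →+ R) := by
    intro ℓ hℓ hℓN hℓS v
    haveI : Fact ℓ.Prime := ⟨hℓ⟩
    have hℓq : ℓ ≠ q := fun h => hℓN (h ▸ hqN)
    have h1 := hΨT ℓ hℓN hℓS v
    rw [hwℓ ℓ hℓq] at h1
    exact h1
  have hΨU' : ∀ v : V,
      ((Ψ (CuspForm.heckeAlgebra.U (Fact.out : q.Prime) hqN hqS) v : V) : Additive K →+ R) =
        diamondU hK (wq ^ m) (UK K q (v : Additive K →+ R)) := by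
    intro v
    have h1 := hΨU q hqN hqS v
    rw [hwq'] at h1
    exact h1
  refine ⟨Ψ, hΨT', ⟨wq, hwq, hΨU'⟩, ?_⟩
  -- `Ψ(U_q)² = 1`
  apply LinearMap.ext
  intro v
  apply Subtype.ext
  rw [Module.End.mul_apply, Module.End.one_apply, hΨU', hΨU']
  obtain ⟨u, hu, huv⟩ := hUU (v : Additive K →+ R) v.2
  rw [diamondU_UK hK hqM, huv, diamondU_eq_of_congrAt hK Qs hnd hQs' hK1 hu hwq,
    ← diamondU_mul, ← diamondU_mul]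
  have h2 : wq ^ m * wq ^ m * wq = wq ^ (2 * m + 1) := by
    rw [← pow_add, ← pow_succ]
    congr 1
    ring
  rw [h2]
  exact diamondU_pow_half hK m hK2 wq _

end Fermat.Agent.S38.H264
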