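import Fermat.Agent.S38.H264.UForm
import Fermat.Agent.S59.TW.H658.CoeffAction

/-!
# Row HARD, leaf (ST), bridge MODQ-U (helper264), part 3: the Hecke relations INCLUDING `U_q`

Setting of helper658's E5 (`S59/TW/H658/HeckeRel.lean`): `Γ₁(M) ≤ K ≤ Γ₀(M)`, `M ∣ N'`,
`u : ℕ → (ℤ/M)ˣ`, but now `S` need NOT contain all primes dividing `N'`: the Prelude ring
`heckeAlgebra N' 2 S` is generated by the `T_ℓ` (`ℓ ∤ N'`, `ℓ ∉ S`) AND the `U_q` (`q ∣ N'`,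
`q ∉ S`).  Index type `HIdx N' S = GoodPrime N' S ⊕ BadPrime N' S`.

On `X_K(A) = Hom(K, A)`:  `t_ℓ = ⟨u ℓ⟩ ∘ T_ℓ`, `u_q = ⟨u q⟩ ∘ U_q` (`tFamU`).  Under `EmbHypU`
(the nebentypus components embed into `S₂(Γ₀(N'))`, intertwining `χ(u ℓ) T_ℓ` with `T_ℓ` and
`χ(u q) U_q` with `U_q`):

* `rel_complexU`, `rel_intU`, `rel_coeffU` : every polynomial relation among the `T_ℓ`, `U_q` on
  `S₂(Γ₀(N'))` holds for the `t_ℓ`, `u_q` on the parabolic classes;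
* `isParabolicHom_tFamU_*` : the operators preserve parabolic classes;
* `exists_heckeActionU_sub` : `heckeAlgebra N' 2 S →+* End_R V` for a stable `R`-submodule `V`
  of parabolic classes, `T_ℓ ↦ t_ℓ`, `U_q ↦ u_q`.
-/

set_option autoImplicit false
set_option linter.unusedSectionVars false
set_option linter.style.haveILetI false

noncomputable section

namespace Fermat.Agent.S38.H264

open CongruenceSubgroup ModularForm ModularCurve ModularCurve.Period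
open UpperHalfPlane hiding I
open Matrix.SpecialLinearGroup Fermat.Agent.Lib.Newform.H803
open Fermat.Agent.S41.H761 Fermat.Agent.S29.H642
open Fermat.Agent.S59.TW.H653 Fermat.Agent.S59.TW.H658
open scoped Manifold MatrixGroups ModularForm

/-- The primes `q ∣ N'`, `q ∉ S`. -/
abbrev BadPrime (N' : ℕ) (S : Set ℕ) : Type := {q : ℕ // q.Prime ∧ q ∣ N' ∧ q ∉ S}

/-- The index type of the generators of `heckeAlgebra N' 2 S`. -/
abbrev HIdx (N' : ℕ) (S : Set ℕ) : Type := GoodPrime N' S ⊕ BadPrime N' S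

section Fam

variable (N' : ℕ) [NeZero N'] (S : Set ℕ)

/-- The family of the `T_ℓ` and `U_q` on `S₂(Γ₀(N'))`. -/
def heckeFamU : HIdx N' S → Module.End ℂ (CuspForm (Gamma0 N') 2) :=
  Sum.elim (heckeFam N' S) (fun i => CuspForm.heckeULin 2 i.2.2.1)

@[simp] theorem heckeFamU_inl (i : GoodPrime N' S) :
    heckeFamU N' S (Sum.inl i) = CuspForm.heckeTLin 2 i.2.1 i.2.2.1 := rfl

@[simp] theorem heckeFamU_inr (i : BadPrime N' S) :
    heckeFamU N' S (Sum.inr i) = CuspForm.heckeULin 2 i.2.2.1 := rfl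

theorem heckeGenerators_eq_rangeU :
    CuspForm.heckeGenerators N' 2 S = Set.range (heckeFamU N' S) := by
  ext T
  constructor
  · rintro (⟨ℓ, hℓ, hℓN, hℓS, rfl⟩ | ⟨q, hqN, hq, hqS, rfl⟩)
    · exact ⟨Sum.inl ⟨ℓ, hℓ, hℓN, hℓS⟩, rfl⟩
    · exact ⟨Sum.inr ⟨q, hq, hqN, hqS⟩, rfl⟩
  · rintro ⟨i | i, rfl⟩
    · exact CuspForm.heckeTLin_mem_heckeGenerators i.2.1 i.2.2.1 i.2.2.2
    · exact CuspForm.heckeULin_mem_heckeGenerators i.2.1 i.2.2.1 i.2.2.2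

theorem heckeAlgebra_eq_adjoinU :
    CuspForm.heckeAlgebra N' 2 S = Algebra.adjoin ℤ (Set.range (heckeFamU N' S)) := by
  rw [CuspForm.heckeAlgebra, heckeGenerators_eq_rangeU N' S]

end Fam

variable {M : ℕ} {K : Subgroup SL(2, ℤ)}

section Ops

variable (hK : IsMid M K) (A : Type*) [AddCommGroup A]

/-- `u_q = ⟨u⟩ ∘ U_q` as an additive endomorphism of `X_K(A) = Hom(K, A)`. -/
def uHom (u : (ZMod M)ˣ) {q : ℕ} [Fact q.Prime] (hq : q ∣ M) :
    (Additive K →+ A) →+ (Additive K →+ A) :=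
  (AddMonoidHom.mk' (diamondU hK u) (diamondU_add hK u)).comp (UKHom hK A hq)

variable {A}

@[simp] theorem uHom_apply (u : (ZMod M)ˣ) {q : ℕ} [Fact q.Prime] (hq : q ∣ M)
    (φ : Additive K →+ A) : uHom hK A u hq φ = diamondU hK u (UK K q φ) := rfl

theorem uHom_comp {B : Type*} [AddCommGroup B] (u : (ZMod M)ˣ) {q : ℕ} [Fact q.Prime]
    (hq : q ∣ M) (π : A →+ B) (φ : Additive K →+ A) :
    uHom hK B u hq (π.comp φ) = π.comp (uHom hK A u hq φ) := by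
  rw [uHom_apply, uHom_apply, UK_comp hK hq, diamondU_comp]

variable (A)

/-- The family of the `t_ℓ` (`ℓ ∤ N'`, `ℓ ∉ S`) and `u_q` (`q ∣ N'`, `q ∉ S`; these divide `M`
by `hB`) as `ℤ`-linear endomorphisms of `X_K(A)`. -/
def tFamU {N' : ℕ} (hMN : M ∣ N') (u : ℕ → (ZMod M)ˣ) {S : Set ℕ}
    (hB : ∀ q : ℕ, q.Prime → q ∣ N' → q ∉ S → q ∣ M) :
    HIdx N' S → Module.End ℤ (Additive K →+ A) :=
  Sum.elim (tFam hK A hMN u) (fun i =>
    haveI : Fact i.1.Prime := ⟨i.2.1⟩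
    (uHom hK A (u i.1) (hB i.1 i.2.1 i.2.2.1 i.2.2.2)).toIntLinearMap)

variable {A}

@[simp] theorem tFamU_inl {N' : ℕ} (hMN : M ∣ N') (u : ℕ → (ZMod M)ˣ) {S : Set ℕ}
    (hB : ∀ q : ℕ, q.Prime → q ∣ N' → q ∉ S → q ∣ M) (i : GoodPrime N' S) :
    tFamU hK A hMN u hB (Sum.inl i) = tFam hK A hMN u i := rfl

theorem tFamU_inr_apply {N' : ℕ} (hMN : M ∣ N') (u : ℕ → (ZMod M)ˣ) {S : Set ℕ}
    (hB : ∀ q : ℕ, q.Prime → q ∣ N' → q ∉ S → q ∣ M) {q : ℕ} [Fact q.Prime]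
    (hq : q.Prime ∧ q ∣ N' ∧ q ∉ S) (φ : Additive K →+ A) :
    tFamU hK A hMN u hB (Sum.inr (⟨q, hq⟩ : BadPrime N' S)) φ =
      diamondU hK (u q) (UK K q φ) := rfl

theorem tFamU_comp {B : Type*} [AddCommGroup B] {N' : ℕ} (hMN : M ∣ N') (u : ℕ → (ZMod M)ˣ)
    {S : Set ℕ} (hB : ∀ q : ℕ, q.Prime → q ∣ N' → q ∉ S → q ∣ M) (i : HIdx N' S)
    (π : A →+ B) (φ : Additive K →+ A) :
    tFamU hK B hMN u hB i (π.comp φ) = π.comp (tFamU hK A hMN u hB i φ) := by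
  rcases i with i | i
  · exact tFam_comp hK hMN u i π φ
  · haveI : Fact i.1.Prime := ⟨i.2.1⟩
    exact uHom_comp hK (u i.1) (hB i.1 i.2.1 i.2.2.1 i.2.2.2) π φ

end Ops

/-- The hypothesis of the transfer, with `U_q`: for every character `χ` trivial on `K` the
nebentypus-`χ` component embeds into `S₂(Γ₀(N'))`, intertwining `χ(u ℓ) • T_ℓ` with `T_ℓ`
(`ℓ ∤ N'`) and `χ(u q) • U_q` with `U_q` (`q ∣ N'`, `q ∉ S`; such `q` divide `M`). -/
structure EmbHypU (K : Subgroup SL(2, ℤ)) (N' : ℕ) [NeZero N'] (u : ℕ → (ZMod M)ˣ)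
    (S : Set ℕ) : Prop where
  dvd : M ∣ N'
  neg : (-1 : SL(2, ℤ)) ∈ K
  bad : ∀ q : ℕ, q.Prime → q ∣ N' → q ∉ S → q ∣ M
  emb : ∀ χ : DirichletCharacter ℂ M, TrivOn K χ →
    ∃ J : nebSub M χ →+ CuspForm (Gamma0 N') 2, Function.Injective J ∧
      (∀ (ℓ : ℕ) [Fact ℓ.Prime] (hℓ : ¬ ℓ ∣ M) (hℓN : ¬ ℓ ∣ N'), ℓ ∉ S → ∀ F : nebSub M χ,
        CuspForm.heckeTLin 2 (Fact.out : ℓ.Prime) hℓN (J F) =
          J (nebT χ hℓ (χ ((u ℓ : (ZMod M)ˣ) : ZMod M)) F)) ∧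
      (∀ (q : ℕ) [Fact q.Prime] (hq : q ∣ M) (hqN : q ∣ N'), q ∉ S → ∀ F : nebSub M χ,
        CuspForm.heckeULin 2 hqN (J F) =
          J (nebU χ hq (χ ((u q : (ZMod M)ˣ) : ZMod M)) F))

variable [NeZero M] [K.FiniteIndex]

/-- **E5 with `U_q`, complex coefficients.** -/
theorem rel_complexU (hK : IsMid M K) {N' : ℕ} [NeZero N'] {u : ℕ → (ZMod M)ˣ} {S : Set ℕ}
    (H : EmbHypU K N' u S) (P : FreeAlgebra ℤ (HIdx N' S))
    (hP : FreeAlgebra.lift ℤ (heckeFamU N' S) P = 0)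
    (y : Additive K →+ ℂ) (hy : IsParabolicHom K y) :
    FreeAlgebra.lift ℤ (tFamU hK ℂ H.dvd u H.bad) P y = 0 := by
  classical
  choose J hJi hJT hJU using H.emb
  have hℓM : ∀ i : GoodPrime N' S, ¬ i.1 ∣ M := fun i h => i.2.2.1 (h.trans H.dvd)
  have hqM : ∀ i : BadPrime N' S, i.1 ∣ M := fun i => H.bad i.1 i.2.1 i.2.2.1 i.2.2.2
  refine rel_of_intertwiners (heckeFamU N' S) (tFamU hK ℂ H.dvd u H.bad)
    (parabolicHoms ℤ K ℂ).toAddSubgroup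
    (W := fun e : {χ : DirichletCharacter ℂ M // TrivOn K χ} => nebSub M e.1)
    (fun e => Sum.elim
      (fun i => haveI : Fact i.1.Prime := ⟨i.2.1⟩
        endToInt ℂ _ (nebT e.1 (hℓM i) (e.1 ((u i.1 : (ZMod M)ˣ) : ZMod M))))
      (fun i => haveI : Fact i.1.Prime := ⟨i.2.1⟩
        endToInt ℂ _ (nebU e.1 (hqM i) (e.1 ((u i.1 : (ZMod M)ˣ) : ZMod M)))))
    (fun e => J e.1 e.2) (fun e => hJi e.1 e.2) ?_
    (fun e => (perGL K).toAddMonoidHom.comp (nebForm hK e.1 e.2).toAddMonoidHom) ?_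
    (conjAdd _) ?_ ?_ P hP y hy
  · rintro e (i | i) w
    · haveI : Fact i.1.Prime := ⟨i.2.1⟩
      exact (hJT e.1 e.2 i.1 (hℓM i) i.2.2.1 i.2.2.2 w).symm
    · haveI : Fact i.1.Prime := ⟨i.2.1⟩
      exact (hJU e.1 e.2 i.1 (hqM i) i.2.2.1 i.2.2.2 w).symm
  · rintro e (i | i) w
    · haveI : Fact i.1.Prime := ⟨i.2.1⟩
      exact perG_nebForm_nebT hK e.1 e.2 (hℓM i) (u i.1) w
    · haveI : Fact i.1.Prime := ⟨i.2.1⟩
      exact perG_nebForm_nebU hK e.1 e.2 (hqM i) (u i.1) w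
  · intro i x
    exact tFamU_comp hK H.dvd u H.bad i (starRingEnd ℂ).toAddMonoidHom x
  · intro y hy
    obtain ⟨f₁, f₂, rfl⟩ := exists_perG_add_conj_of_isMid hK H.neg y hy
    obtain ⟨w₁, hw₁⟩ := exists_nebForm_sum hK f₁
    obtain ⟨w₂, hw₂⟩ := exists_nebForm_sum hK f₂
    refine AddSubgroup.add_mem _ ?_ ?_
    · have : perG f₁ = ∑ χ : {χ : DirichletCharacter ℂ M // TrivOn K χ},
          perG (nebForm hK χ.1 χ.2 (w₁ χ)) := by
        conv_lhs => rw [hw₁]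
        rw [← perGL_apply, map_sum]
        rfl
      rw [this]
      exact AddSubgroup.sum_mem _ fun χ _ => AddSubgroup.subset_closure ⟨χ, w₁ χ, Or.inl rfl⟩
    · have : conjHom (perG f₂) = ∑ χ : {χ : DirichletCharacter ℂ M // TrivOn K χ},
          conjHom (perG (nebForm hK χ.1 χ.2 (w₂ χ))) := by
        conv_lhs => rw [hw₂]
        rw [← perGL_apply, map_sum, ← conjAdd_apply, map_sum]
        rfl
      rw [this]
      exact AddSubgroup.sum_mem _ fun χ _ => AddSubgroup.subset_closure ⟨χ, w₂ χ, Or.inr rfl⟩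

/-- `u_q = ⟨u⟩ U_q` preserves the complex parabolic classes. -/
theorem isParabolicHom_uHom_complex (hK : IsMid M K) (hneg : (-1 : SL(2, ℤ)) ∈ K)
    (u : (ZMod M)ˣ) {q : ℕ} [Fact q.Prime] (hq : q ∣ M)
    (y : Additive K →+ ℂ) (hy : IsParabolicHom K y) :
    IsParabolicHom K (uHom hK ℂ u hq y) := by
  obtain ⟨f₁, f₂, rfl⟩ := exists_perG_add_conj_of_isMid hK hneg y hy
  have h1 : ∀ f : CuspForm K 2, uHom hK ℂ u hq (perG f) =
      perG (diaForm hK (sg u) (UForm hK hq f)) := by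
    intro f
    rw [perG_diaForm, perG_UForm, ← diamondU_eq hK (dUnit_sg u)]
    rfl
  have h2 : uHom hK ℂ u hq (conjHom (perG f₂)) = conjHom (uHom hK ℂ u hq (perG f₂)) :=
    uHom_comp hK u hq (starRingEnd ℂ).toAddMonoidHom _
  rw [map_add, h2, h1, h1]
  intro γ hγ
  rw [AddMonoidHom.add_apply, conjHom_apply, perG_parabolic _ γ hγ, perG_parabolic _ γ hγ]
  simp

/-- The operators `t_ℓ`, `u_q` preserve the complex parabolic classes. -/
theorem isParabolicHom_tFamU_complex (hK : IsMid M K) {N' : ℕ} (hMN : M ∣ N')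
    (hneg : (-1 : SL(2, ℤ)) ∈ K) (u : ℕ → (ZMod M)ˣ) {S : Set ℕ}
    (hB : ∀ q : ℕ, q.Prime → q ∣ N' → q ∉ S → q ∣ M) (i : HIdx N' S)
    (y : Additive K →+ ℂ) (hy : IsParabolicHom K y) :
    IsParabolicHom K (tFamU hK ℂ hMN u hB i y) := by
  rcases i with i | i
  · exact isParabolicHom_tFam_complex hK hMN hneg u i y hy
  · haveI : Fact i.1.Prime := ⟨i.2.1⟩
    exact isParabolicHom_uHom_complex hK hneg (u i.1) (hB i.1 i.2.1 i.2.2.1 i.2.2.2) y hy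

/-- The operators `t_ℓ`, `u_q` preserve the integral parabolic classes. -/
theorem isParabolicHom_tFamU_int (hK : IsMid M K) {N' : ℕ} (hMN : M ∣ N')
    (hneg : (-1 : SL(2, ℤ)) ∈ K) (u : ℕ → (ZMod M)ˣ) {S : Set ℕ}
    (hB : ∀ q : ℕ, q.Prime → q ∣ N' → q ∉ S → q ∣ M) (i : HIdx N' S)
    (y : Additive K →+ ℤ) (hy : IsParabolicHom K y) :
    IsParabolicHom K (tFamU hK ℤ hMN u hB i y) := by
  rw [← isParabolicHom_castHom]
  have h1 : castHom _ (tFamU hK ℤ hMN u hB i y) = tFamU hK ℂ hMN u hB i (castHom _ y) :=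
    (tFamU_comp hK hMN u hB i (Int.castAddHom ℂ) y).symm
  rw [h1]
  exact isParabolicHom_tFamU_complex hK hMN hneg u hB i _ (isParabolicHom_castHom.mpr hy)

/-- **E5 with `U_q`, integral coefficients.** -/
theorem rel_intU (hK : IsMid M K) {N' : ℕ} [NeZero N'] {u : ℕ → (ZMod M)ˣ} {S : Set ℕ}
    (H : EmbHypU K N' u S) (P : FreeAlgebra ℤ (HIdx N' S))
    (hP : FreeAlgebra.lift ℤ (heckeFamU N' S) P = 0)
    (y : Additive K →+ ℤ) (hy : IsParabolicHom K y) :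
    FreeAlgebra.lift ℤ (tFamU hK ℤ H.dvd u H.bad) P y = 0 := by
  apply castHom_injective
  rw [lift_intertwine (tFamU hK ℤ H.dvd u H.bad) (tFamU hK ℂ H.dvd u H.bad) (castHom _)
    (fun i m => (tFamU_comp hK H.dvd u H.bad i (Int.castAddHom ℂ) m).symm) P y, map_zero]
  exact rel_complexU hK H P hP _ (isParabolicHom_castHom.mpr hy)

section Coeff

variable {A : Type*} [AddCommGroup A] [Module.IsTorsionFree ℤ A]

/-- **E6 with `U_q`.**  The relations hold on parabolic classes with torsion-free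
coefficients. -/
theorem rel_coeffU (hK : IsMid M K) {N' : ℕ} [NeZero N'] {u : ℕ → (ZMod M)ˣ} {S : Set ℕ}
    (H : EmbHypU K N' u S) (P : FreeAlgebra ℤ (HIdx N' S))
    (hP : FreeAlgebra.lift ℤ (heckeFamU N' S) P = 0)
    (y : Additive K →+ A) (hy : IsParabolicHom K y) :
    FreeAlgebra.lift ℤ (tFamU hK A H.dvd u H.bad) P y = 0 := by
  haveI := fg_of_finiteIndex K
  refine hom_induction_of_torsionFree (parSet K)
    (fun y => FreeAlgebra.lift ℤ (tFamU hK A H.dvd u H.bad) P y = 0) ?_ (map_zero _) ?_ y hy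
  · intro φ ψ hφ hψ
    rw [map_add, hφ, hψ, add_zero]
  · intro ψ a hψ
    have h1 := lift_intertwine (tFamU hK ℤ H.dvd u H.bad) (tFamU hK A H.dvd u H.bad)
      (compAdd _ (zmultiplesHom A a))
      (fun i m => (tFamU_comp hK H.dvd u H.bad i (zmultiplesHom A a) m).symm) P ψ
    simp only [compAdd_apply] at h1
    rw [← h1, rel_intU hK H P hP ψ hψ]
    exact AddMonoidHom.comp_zero _

/-- `t_ℓ`, `u_q` preserve the parabolic classes with torsion-free coefficients. -/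
theorem isParabolicHom_tFamU_coeff (hK : IsMid M K) {N' : ℕ} (hMN : M ∣ N')
    (hneg : (-1 : SL(2, ℤ)) ∈ K) (u : ℕ → (ZMod M)ˣ) {S : Set ℕ}
    (hB : ∀ q : ℕ, q.Prime → q ∣ N' → q ∉ S → q ∣ M) (i : HIdx N' S)
    (y : Additive K →+ A) (hy : IsParabolicHom K y) :
    IsParabolicHom K (tFamU hK A hMN u hB i y) := by
  haveI := fg_of_finiteIndex K
  refine hom_induction_of_torsionFree (parSet K)
    (fun y => IsParabolicHom K (tFamU hK A hMN u hB i y)) ?_ ?_ ?_ y hy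
  · intro φ ψ hφ hψ γ hγ
    rw [map_add, AddMonoidHom.add_apply, hφ γ hγ, hψ γ hγ, add_zero]
  · intro γ hγ
    rw [map_zero]
    rfl
  · intro ψ a hψ γ hγ
    rw [tFamU_comp hK hMN u hB i (zmultiplesHom A a) ψ, AddMonoidHom.comp_apply,
      isParabolicHom_tFamU_int hK hMN hneg u hB i ψ hψ γ hγ, map_zero]

end Coeff

section Sub

variable {R : Type*} [CommRing R] [Module.IsTorsionFree ℤ R]

/-- `t_ℓ`, `u_q` are `R`-linear on `Hom(K, R)`. -/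
theorem tFamU_smul (hK : IsMid M K) {N' : ℕ} (hMN : M ∣ N') (u : ℕ → (ZMod M)ˣ) {S : Set ℕ}
    (hB : ∀ q : ℕ, q.Prime → q ∣ N' → q ∉ S → q ∣ M) (i : HIdx N' S) (r : R)
    (φ : Additive K →+ R) :
    tFamU hK R hMN u hB i (r • φ) = r • tFamU hK R hMN u hB i φ := by
  have h1 : ∀ ψ : Additive K →+ R, r • ψ = (AddMonoidHom.mulLeft r).comp ψ := fun ψ =>
    AddMonoidHom.ext fun _ => rfl
  rw [h1, h1, tFamU_comp]

/-- **MODQ-U (abstract shape).**  For a commutative ring `R`, torsion-free as an abelian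
group, and an `R`-submodule `V ⊆ Hom(K, R)` of parabolic classes stable under the
`t_ℓ = ⟨u ℓ⟩ T_ℓ` and the `u_q = ⟨u q⟩ U_q`: the Hecke algebra of `Γ₀(N')` away from `S`
(generated by the `T_ℓ` AND the `U_q`, `q ∣ N'`, `q ∉ S`) acts `R`-linearly on `V`. -/
theorem exists_heckeActionU_sub (hK : IsMid M K) {N' : ℕ} [NeZero N'] {u : ℕ → (ZMod M)ˣ}
    {S : Set ℕ} (H : EmbHypU K N' u S)
    (V : Submodule R (Additive K →+ R)) (hpar : ∀ v ∈ V, IsParabolicHom K v)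
    (hstT : ∀ (ℓ : ℕ) [Fact ℓ.Prime], ¬ ℓ ∣ N' → ℓ ∉ S → ∀ v ∈ V,
      diamondU hK (u ℓ) (TK M K ℓ v) ∈ V)
    (hstU : ∀ (q : ℕ) [Fact q.Prime], q ∣ N' → q ∉ S → ∀ v ∈ V,
      diamondU hK (u q) (UK K q v) ∈ V) :
    ∃ Ψ : CuspForm.heckeAlgebra N' 2 S →+* Module.End R V,
      (∀ (ℓ : ℕ) [Fact ℓ.Prime] (hℓN : ¬ ℓ ∣ N') (hℓS : ℓ ∉ S) (v : V),
        ((Ψ (CuspForm.heckeAlgebra.T (Fact.out : ℓ.Prime) hℓN hℓS) v : V) :
          Additive K →+ R) = diamondU hK (u ℓ) (TK M K ℓ (v : Additive K →+ R))) ∧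
      ∀ (q : ℕ) [Fact q.Prime] (hqN : q ∣ N') (hqS : q ∉ S) (v : V),
        ((Ψ (CuspForm.heckeAlgebra.U (Fact.out : q.Prime) hqN hqS) v : V) :
          Additive K →+ R) = diamondU hK (u q) (UK K q (v : Additive K →+ R)) := by
  have hst' : ∀ (i : HIdx N' S), ∀ v ∈ V, tFamU hK R H.dvd u H.bad i v ∈ V := by
    rintro (i | i) v hv
    · haveI : Fact i.1.Prime := ⟨i.2.1⟩
      exact hstT i.1 i.2.2.1 i.2.2.2 v hv
    · haveI : Fact i.1.Prime := ⟨i.2.1⟩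
      exact hstU i.1 i.2.2.1 i.2.2.2 v hv
  obtain ⟨Φ₀, hΦ₀⟩ := exists_ringHom_linear (heckeFamU N' S) (tFamU hK R H.dvd u H.bad)
    (fun i r x => tFamU_smul hK H.dvd u H.bad i r x) V hst'
    (fun P hP v hv => rel_coeffU hK H P hP v (hpar v hv))
  have heq := heckeAlgebra_eq_adjoinU N' S
  refine ⟨Φ₀.comp (Subalgebra.equivOfEq _ _ heq).toRingEquiv.toRingHom, ?_, ?_⟩
  · intro ℓ _ hℓN hℓS v
    have h1 : (Subalgebra.equivOfEq _ _ heq).toRingEquiv.toRingHom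
        (CuspForm.heckeAlgebra.T (Fact.out : ℓ.Prime) hℓN hℓS) =
        ⟨heckeFamU N' S (Sum.inl ⟨ℓ, Fact.out, hℓN, hℓS⟩),
          Algebra.subset_adjoin ⟨_, rfl⟩⟩ := rfl
    rw [RingHom.comp_apply, h1, hΦ₀]
    rfl
  · intro q _ hqN hqS v
    have h1 : (Subalgebra.equivOfEq _ _ heq).toRingEquiv.toRingHom
        (CuspForm.heckeAlgebra.U (Fact.out : q.Prime) hqN hqS) =
        ⟨heckeFamU N' S (Sum.inr ⟨q, Fact.out, hqN, hqS⟩),
          Algebra.subset_adjoin ⟨_, rfl⟩⟩ := rfl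
    rw [RingHom.comp_apply, h1, hΦ₀]
    rfl

end Sub

end Fermat.Agent.S38.H264
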