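import Fermat.Agent.S59.TW.H658.NebOps

/-!
# Row HARD, leaf (ST), bridge MODQ-U (helper264), part 1: `U_q` on `S₂(K)` and on the
# nebentypus components

`Γ₁(M) ≤ K ≤ Γ₀(M)` (`H653.IsMid M K`), `q ∣ M` prime.  Mirror of helper658's `TForm` / `nebT`
(`S59/TW/H658/{HeckeForms,NebOps}.lean`) for the operator `U_q`:

* `UForm hK hq : CuspForm K 2 →ₗ[ℂ] CuspForm K 2`, `⇑(UForm hK hq f) = ∑ⱼ ⇑f ∣[2] repsU q j`;
  `perG_UForm : perG (UForm hK hq f) = H653.UK K q (perG f)`;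
* `isNeb_famOp_repsU` : `F ↦ ∑ⱼ F ∣ repsU q j` preserves the nebentypus;
* `famOp_repsU_eq` : `∑ⱼ F ∣ repsU q j = heckeU 2 q F`;
* `nebU χ hq c : nebSub M χ →ₗ[ℂ] nebSub M χ`, `F ↦ c • ∑ⱼ F ∣ repsU q j`;
* `perG_nebForm_nebU` : `perG (nebForm (nebU χ hq (χ u) F)) = ⟨u⟩ U_q (perG (nebForm F))`.
-/

set_option autoImplicit false
set_option linter.unusedSectionVars false

noncomputable section

namespace Fermat.Agent.S38.H264

open CongruenceSubgroup ModularForm ModularCurve ModularCurve.Period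
open UpperHalfPlane hiding I
open Matrix.SpecialLinearGroup Fermat.Agent.Lib.Newform.H803
open Fermat.Agent.S41.H761 Fermat.Agent.S29.H642
open Fermat.Agent.S59.TW.H653 Fermat.Agent.S59.TW.H564 Fermat.Agent.S59.TW.H658
open scoped Manifold MatrixGroups ModularForm

variable {M : ℕ} {K : Subgroup SL(2, ℤ)}

theorem det_repsU_pos (q : ℕ) (j : ZMod q) :
    0 < ((repsU q j : GL (Fin 2) ℝ) : Matrix (Fin 2) (Fin 2) ℝ).det := by
  have := ModularForm.det_heckeMatrix_pos q j.val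
  rwa [Matrix.GeneralLinearGroup.val_det_apply] at this

theorem isCuspidal_slash_repsU {k : ℤ} {q : ℕ} (hq0 : q ≠ 0) (F : ℍ → ℂ)
    (hF : IsCuspidal k F) (j : ZMod q) : IsCuspidal k (F ∣[k] repsU q j) :=
  hF.slash_heckeMatrix hq0 _

/-- `∑ⱼ F ∣ repsU q j = U_q F` (function level). -/
theorem famOp_repsU_eq {k : ℤ} (q : ℕ) [NeZero q] (F : ℍ → ℂ) :
    famOp k (repsU q) F = heckeU k q F := by
  rw [famOp]
  exact sum_zmod_val_eq_sum_range (fun j => F ∣[k] heckeMatrix q j)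

/-- The operator `∑ⱼ F ∣ repsU q j` preserves the nebentypus. -/
theorem isNeb_famOp_repsU (χ : DirichletCharacter ℂ M) {q : ℕ} [Fact q.Prime] (hq : q ∣ M)
    {F : ℍ → ℂ} (hF : IsNeb 2 M (chiZ χ) F) :
    IsNeb 2 M (chiZ χ) (famOp 2 (repsU q) F) := by
  intro γ hγ
  have h₀ := repsU_system0 (M := M) hq
  have key : ∀ i : ZMod q, (F ∣[(2 : ℤ)] repsU q i) ∣[(2 : ℤ)] γ =
      chiZ χ (γ 1 1) • F ∣[(2 : ℤ)] repsU q (h₀.act i ⟨γ, hγ⟩) := by
    intro i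
    have hs := h₀.spec i ⟨γ, hγ⟩
    rw [ιN_apply, ιN_apply] at hs
    have hd := dUnit_coc h₀ (isNormRep_repsU q) i ⟨γ, hγ⟩
    have hc : chiZ χ (((h₀.coc i ⟨γ, hγ⟩ : Gamma0 M) : SL(2, ℤ)) 1 1) = chiZ χ (γ 1 1) := by
      rw [chiZ_of_mem, hd, ← chiZ_of_mem]
    rw [sl_slash_mapGL, ← SlashAction.slash_mul, hs, SlashAction.slash_mul, ← sl_slash_mapGL,
      hF _ (h₀.coc i ⟨γ, hγ⟩).2, smul_slash_of_det_pos _ _ (det_repsU_pos q _), hc]
  rw [famOp, SlashAction.sum_slash]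
  simp only [key]
  rw [← Finset.smul_sum]
  congr 1
  exact Equiv.sum_comp (h₀.actEquiv ⟨γ, hγ⟩) (fun j => F ∣[(2 : ℤ)] repsU q j)

/-- `F ↦ c • ∑ⱼ F ∣ repsU q j` on the nebentypus-`χ` component. -/
def nebU (χ : DirichletCharacter ℂ M) {q : ℕ} [Fact q.Prime] (hq : q ∣ M) (c : ℂ) :
    nebSub M χ →ₗ[ℂ] nebSub M χ where
  toFun F := ⟨c • famOp 2 (repsU q) (F : ℍ → ℂ), (nebSub M χ).smul_mem c
    ⟨isCuspidal_famOp (isCuspidal_slash_repsU (Fact.out : q.Prime).ne_zero) F.2.1,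
      isNeb_famOp_repsU χ hq F.2.2⟩⟩
  map_add' F G := Subtype.ext <| by
    show c • famOp 2 (repsU q) ((F : ℍ → ℂ) + (G : ℍ → ℂ)) = _
    rw [famOp_add, smul_add]
    rfl
  map_smul' a F := Subtype.ext <| by
    show c • famOp 2 (repsU q) (a • (F : ℍ → ℂ)) = a • (c • famOp 2 (repsU q) (F : ℍ → ℂ))
    rw [famOp_smul _ (det_repsU_pos q), smul_comm]

@[simp] theorem coe_nebU (χ : DirichletCharacter ℂ M) {q : ℕ} [Fact q.Prime] (hq : q ∣ M)
    (c : ℂ) (F : nebSub M χ) :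
    ((nebU χ hq c F : nebSub M χ) : ℍ → ℂ) = c • famOp 2 (repsU q) (F : ℍ → ℂ) := rfl

variable [K.FiniteIndex]

/-- `U_q` on weight-2 cusp forms of `K`. -/
def UForm (hK : IsMid M K) {q : ℕ} [Fact q.Prime] (hq : q ∣ M) :
    CuspForm K 2 →ₗ[ℂ] CuspForm K 2 :=
  cosetOp (repsU_system hK hq) (det_repsU_pos q)
    (isCuspidal_slash_repsU (Fact.out : q.Prime).ne_zero)

@[simp] theorem coe_UForm (hK : IsMid M K) {q : ℕ} [Fact q.Prime] (hq : q ∣ M)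
    (f : CuspForm K 2) : (⇑(UForm hK hq f) : ℍ → ℂ) = famOp 2 (repsU q) ⇑f := rfl

/-- **E2 for `U_q`.** -/
theorem perG_UForm (hK : IsMid M K) {q : ℕ} [Fact q.Prime] (hq : q ∣ M) (f : CuspForm K 2) :
    perG (UForm hK hq f) = UK K q (perG f) := by
  rw [UK_eq hK hq]
  exact perG_cosetOp (repsU_system hK hq) _ _ f

/-- **E2 on the `χ`-component for `U_q`**: the period map intertwines
`χ(u) • ∑ⱼ · ∣ repsU q j` with `⟨u⟩ ∘ U_q`. -/
theorem perG_nebForm_nebU [NeZero M] (hK : IsMid M K) (χ : DirichletCharacter ℂ M)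
    (hχ : TrivOn K χ) {q : ℕ} [Fact q.Prime] (hq : q ∣ M) (u : (ZMod M)ˣ) (F : nebSub M χ) :
    perG (nebForm hK χ hχ (nebU χ hq (χ (u : ZMod M)) F)) =
      diamondU hK u (UK K q (perG (nebForm hK χ hχ F))) := by
  rw [← perG_UForm hK hq, diamondU_eq hK (dUnit_sg u), ← perG_diaForm]
  congr 1
  apply DFunLike.coe_injective
  rw [coe_nebForm, coe_nebU, coe_diaForm, coe_UForm, coe_nebForm,
    isNeb_famOp_repsU χ hq F.2.2 _ (sg u).2, chiZ_of_mem, dUnit_sg]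

end Fermat.Agent.S38.H264
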